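import Mathlib

/-!
# Euler's integral with a complex parameter

`integral_cpow_mul_exp`: `∫₀^∞ t^{a-1} e^{-r t} dt = (1 / r)^a Γ(a)` for `0 < re a`, `0 < re r`.
-/

set_option autoImplicit false

noncomputable section

namespace Fermat.Agent.Cor.Hardy

open Complex Real Filter Topology Set MeasureTheory

theorem integrableOn_rpow_mul_exp {σ b : ℝ} (hσ : -1 < σ) (hb : 0 < b) :
    IntegrableOn (fun t : ℝ => t ^ σ * Real.exp (-b * t)) (Ioi 0) := by
  have h := integrableOn_rpow_mul_exp_neg_mul_rpow (p := 1) hσ one_pos hb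
  simpa only [Real.rpow_one] using h

theorem norm_cpow_mul_exp {a r : ℂ} {t : ℝ} (ht : 0 < t) :
    ‖(t : ℂ) ^ a * cexp (-(r * t))‖ = t ^ a.re * Real.exp (-r.re * t) := by
  rw [norm_mul, norm_cpow_eq_rpow_re_of_pos ht, norm_exp]
  congr 2
  rw [neg_re, mul_comm r, re_ofReal_mul]
  ring

theorem aestronglyMeasurable_term (a r : ℂ) :
    AEStronglyMeasurable (fun t : ℝ => (t : ℂ) ^ a * cexp (-(r * t)))
      (volume.restrict (Ioi 0)) := by
  refine ContinuousOn.aestronglyMeasurable (fun t ht => ?_) measurableSet_Ioi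
  have ht' : t ≠ 0 := ne_of_gt ht
  refine ContinuousAt.continuousWithinAt ?_
  exact (continuousAt_ofReal_cpow_const _ _ (Or.inr ht')).mul (by fun_prop)

theorem integrableOn_term {a r : ℂ} (ha : -1 < a.re) (hr : 0 < r.re) :
    IntegrableOn (fun t : ℝ => (t : ℂ) ^ a * cexp (-(r * t))) (Ioi 0) := by
  refine (integrable_norm_iff (aestronglyMeasurable_term a r)).mp ?_
  refine (integrableOn_rpow_mul_exp ha hr).congr_fun (fun t ht => ?_) measurableSet_Ioi
  exact (norm_cpow_mul_exp ht).symm

theorem hasDerivAt_integral {a : ℂ} (ha : 0 < a.re) {r₀ : ℂ} (hr : 0 < r₀.re) :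
    DifferentiableAt ℂ (fun r : ℂ => ∫ t in Ioi (0 : ℝ), (t : ℂ) ^ (a - 1) * cexp (-(r * t)))
      r₀ := by
  set b : ℝ := r₀.re / 2 with hb
  have hb0 : 0 < b := by positivity
  have hs : {r : ℂ | b < r.re} ∈ 𝓝 r₀ :=
    (isOpen_lt continuous_const continuous_re).mem_nhds (by simp only [mem_ofPred_eq]; linarith)
  have ha1 : -1 < (a - 1).re := by
    rw [sub_re, one_re]
    linarith
  have key := hasDerivAt_integral_of_dominated_loc_of_deriv_le (𝕜 := ℂ)
    (μ := volume.restrict (Ioi (0 : ℝ)))
    (F := fun (r : ℂ) (t : ℝ) => (t : ℂ) ^ (a - 1) * cexp (-(r * t)))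
    (F' := fun (r : ℂ) (t : ℝ) => (t : ℂ) ^ (a - 1) * (cexp (-(r * t)) * (-t)))
    (x₀ := r₀) (s := {r : ℂ | b < r.re}) (bound := fun t : ℝ => t ^ a.re * Real.exp (-b * t))
    hs (Eventually.of_forall fun r => aestronglyMeasurable_term _ r)
    (integrableOn_term ha1 hr) ?_ ?_ (integrableOn_rpow_mul_exp (by linarith) hb0) ?_
  · exact key.2.differentiableAt
  · have h := aestronglyMeasurable_term (a - 1) r₀
    have h2 : AEStronglyMeasurable (fun t : ℝ => (-(t : ℂ))) (volume.restrict (Ioi 0)) := by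
      exact (by fun_prop : Continuous fun t : ℝ => (-(t : ℂ))).aestronglyMeasurable
    refine (h.mul h2).congr (Eventually.of_forall fun t => ?_)
    simp only [Pi.mul_apply]
    ring
  · refine (ae_restrict_iff' measurableSet_Ioi).mpr (Eventually.of_forall fun t ht r hr' => ?_)
    have ht' : 0 < t := ht
    have hr'' : b < r.re := hr'
    rw [← mul_assoc, norm_mul, norm_cpow_mul_exp ht', norm_neg, norm_real, Real.norm_eq_abs,
      abs_of_pos ht', sub_re, one_re]
    have h1 : t ^ (a.re - 1) * t = t ^ a.re := by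
      rw [← Real.rpow_add_one ht'.ne', sub_add_cancel]
    calc t ^ (a.re - 1) * Real.exp (-r.re * t) * t
        = (t ^ (a.re - 1) * t) * Real.exp (-r.re * t) := by ring
      _ = t ^ a.re * Real.exp (-r.re * t) := by rw [h1]
      _ ≤ t ^ a.re * Real.exp (-b * t) := by
          gcongr
  · refine (ae_restrict_iff' measurableSet_Ioi).mpr (Eventually.of_forall fun t ht r _ => ?_)
    have h1 : HasDerivAt (fun r : ℂ => -(r * t)) (-t) r := by
      have h0 := (hasDerivAt_id r).mul_const (-(t : ℂ))
      refine (h0.congr_deriv (by ring)).congr_of_eventuallyEq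
        (Eventually.of_forall fun z => ?_)
      simp only [id_eq, mul_neg]
    exact (h1.cexp).const_mul _

/-- **Euler's integral with a complex parameter.** -/
theorem integral_cpow_mul_exp {a r : ℂ} (ha : 0 < a.re) (hr : 0 < r.re) :
    ∫ t in Ioi (0 : ℝ), (t : ℂ) ^ (a - 1) * cexp (-(r * t)) =
      cexp (-(Complex.log r * a)) * Complex.Gamma a := by
  set U : Set ℂ := {r : ℂ | 0 < r.re} with hU
  have hUo : IsOpen U := isOpen_lt continuous_const continuous_re
  have hUc : IsPreconnected U := (convex_halfSpace_re_gt 0).isPreconnected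
  have hf : AnalyticOnNhd ℂ
      (fun r : ℂ => ∫ t in Ioi (0 : ℝ), (t : ℂ) ^ (a - 1) * cexp (-(r * t))) U :=
    DifferentiableOn.analyticOnNhd
      (fun r hr => (hasDerivAt_integral ha hr).differentiableWithinAt) hUo
  have hg : AnalyticOnNhd ℂ (fun r : ℂ => cexp (-(Complex.log r * a)) * Complex.Gamma a) U := by
    refine DifferentiableOn.analyticOnNhd (fun r hr => ?_) hUo
    have h1 : DifferentiableAt ℂ Complex.log r :=
      Complex.differentiableAt_log (Or.inl hr)
    exact (((h1.mul_const a).neg.cexp).mul_const _).differentiableWithinAt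
  have h1U : (1 : ℂ) ∈ U := by
    simp only [hU, mem_ofPred_eq, one_re]
    exact one_pos
  have hfreq : ∃ᶠ z in 𝓝[≠] (1 : ℂ),
      (∫ t in Ioi (0 : ℝ), (t : ℂ) ^ (a - 1) * cexp (-(z * t))) =
        cexp (-(Complex.log z * a)) * Complex.Gamma a := by
    have htend : Tendsto (fun n : ℕ => ((1 + 1 / ((n : ℝ) + 1) : ℝ) : ℂ)) atTop (𝓝[≠] 1) := by
      rw [tendsto_nhdsWithin_iff]
      constructor
      · have h1 : Tendsto (fun n : ℕ => (1 + 1 / ((n : ℝ) + 1) : ℝ)) atTop (𝓝 (1 + 0)) :=
          tendsto_const_nhds.add tendsto_one_div_add_atTop_nhds_zero_nat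
        rw [add_zero] at h1
        have h2 := (Complex.continuous_ofReal.tendsto 1).comp h1
        rw [Complex.ofReal_one] at h2
        exact h2
      · refine Eventually.of_forall fun n => ?_
        simp only [mem_compl_iff, mem_singleton_iff]
        intro h
        have h3 : (1 + 1 / ((n : ℝ) + 1) : ℝ) = 1 := by exact_mod_cast h
        have h4 : (0 : ℝ) < 1 / ((n : ℝ) + 1) := by positivity
        linarith
    refine htend.frequently (Frequently.of_forall fun n => ?_)
    have hx : (0 : ℝ) < 1 + 1 / ((n : ℝ) + 1) := by positivity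
    have h5 := integral_cpow_mul_exp_neg_mul_Ioi ha hx
    rw [h5]
    congr 1
    rw [← Complex.ofReal_one, ← Complex.ofReal_div,
      Complex.cpow_def_of_ne_zero (by exact_mod_cast (one_div_pos.mpr hx).ne')]
    congr 1
    rw [← Complex.ofReal_log (one_div_pos.mpr hx).le, ← Complex.ofReal_log hx.le, one_div,
      Real.log_inv]
    push_cast
    ring
  exact hf.eqOn_of_preconnected_of_frequently_eq hg hUc h1U hfreq hr

end Fermat.Agent.Cor.Hardy

end
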