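import Fermat.Agent.Corollaries.ZetaK.Hardy.Pair
import Fermat.Agent.Corollaries.ZetaK.Strip

/-!
# Mellin inversion on the critical line

* `hasMellin_strip`: for a weak FE pair, `Λ(s)` is for `0 < re s < k` the Mellin transform of
  `f(x) - f₀ - ε x^{-k} g₀`.
* `exists_bound_X`: `ξ(1/2 + 2 i y) = O(e^{-ψ |y|})` for every `ψ < π/2`.
* `inversion`: `(1 / 2π) ∫ x^{-(1/4 + i y)} 2 e^{-iφ/4} e^{φ y} ξ(1/2 + 2 i y) dy =
  θ(e^{iφ} x) - 1 - e^{-iφ/2} x^{-1/2}`.
-/

set_option autoImplicit false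

noncomputable section

namespace Fermat.Agent.Cor.Hardy

open Complex Real Filter Topology Set MeasureTheory

/-- the Mellin transform of a power function restricted to `(1, ∞)` -/
theorem hasMellin_cpow_Ioi (k : ℝ) {s : ℂ} (hs : s.re < k) :
    HasMellin (indicator (Ioi 1) (fun t : ℝ => ((t ^ (-k) : ℝ) : ℂ))) s (1 / (k - s)) := by
  have haux : (s - k - 1).re < -1 := by
    simp only [sub_re, ofReal_re, one_re]
    linarith
  have e : ∀ t ∈ Ioi (1 : ℝ), (t : ℂ) ^ (s - 1) * ((t ^ (-k) : ℝ) : ℂ) =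
      (t : ℂ) ^ (s - k - 1) := by
    intro t ht
    have ht0 : (0 : ℝ) < t := zero_lt_one.trans ht
    rw [ofReal_cpow ht0.le, ← cpow_add _ _ (ofReal_ne_zero.mpr ht0.ne')]
    congr 1
    push_cast
    ring
  simp_rw [HasMellin, mellin, MellinConvergent, ← indicator_smul, IntegrableOn,
    integrable_indicator_iff measurableSet_Ioi, smul_eq_mul,
    integral_indicator measurableSet_Ioi, IntegrableOn,
    Measure.restrict_restrict_of_subset (Ioi_subset_Ioi (zero_le_one : (0 : ℝ) ≤ 1))]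
  constructor
  · exact (integrableOn_Ioi_cpow_of_lt haux one_pos).congr_fun (fun t ht => (e t ht).symm)
      measurableSet_Ioi
  · rw [setIntegral_congr_fun measurableSet_Ioi e, integral_Ioi_cpow_of_lt haux one_pos,
      ofReal_one, one_cpow]
    have h1 : s - k - 1 + 1 ≠ 0 := by
      intro h
      have h2 : (s - k - 1 + 1).re = 0 := by rw [h, zero_re]
      simp only [add_re, sub_re, ofReal_re, one_re] at h2
      linarith
    have h3 : (k : ℂ) - s ≠ 0 := by
      intro h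
      apply h1
      linear_combination -h
    field_simp
    ring

theorem hasMellin_congr {f g : ℝ → ℂ} {s m : ℂ} (h : HasMellin f s m)
    (hfg : ∀ t : ℝ, 0 < t → t ≠ 1 → f t = g t) : HasMellin g s m := by
  have hae : (fun t : ℝ => (t : ℂ) ^ (s - 1) • f t) =ᵐ[volume.restrict (Ioi 0)]
      fun t : ℝ => (t : ℂ) ^ (s - 1) • g t := by
    filter_upwards [ae_restrict_mem measurableSet_Ioi,
      ae_restrict_of_ae (Measure.ae_ne volume (1 : ℝ))] with t ht ht1
    rw [hfg t ht ht1]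
  exact ⟨Integrable.congr h.1 hae, by rw [← h.2, mellin, mellin]; exact (integral_congr_ae hae).symm⟩

/-- **The Mellin transform of a weak FE pair in the strip `0 < re s < k`.** -/
theorem hasMellin_strip (P : WeakFEPair ℂ) {s : ℂ} (h0 : 0 < s.re) (h1 : s.re < P.k) :
    HasMellin (fun x : ℝ => P.f x - P.f₀ - P.ε * ((x ^ (-P.k) : ℝ) : ℂ) * P.g₀) s (P.Λ s) := by
  have hA := (P.isStrongFEPair_toStrongFEPair.hasMellin s).1
  have hB := hasMellin_one_Ioc h0
  have hC := hasMellin_cpow_Ioi P.k h1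
  have hB' := hB.1.const_smul P.f₀
  have hC' := hC.1.const_smul (P.ε * P.g₀)
  have h2 := hasMellin_sub (f := P.f_modif) hA hB'
  have h3 := hasMellin_sub h2.1 hC'
  have hval : mellin (fun t => P.f_modif t - P.f₀ • (Ioc 0 1).indicator (fun _ => (1 : ℂ)) t) s -
      mellin (fun t => (P.ε * P.g₀) • (Ioi 1).indicator (fun t : ℝ => ((t ^ (-P.k) : ℝ) : ℂ)) t) s =
      P.Λ s := by
    rw [h2.2, mellin_const_smul, mellin_const_smul, hB.2, hC.2, WeakFEPair.Λ, WeakFEPair.Λ₀]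
    simp only [smul_eq_mul]
    ring
  rw [hval] at h3
  refine hasMellin_congr h3 fun t ht ht1 => ?_
  rcases lt_or_gt_of_ne ht1 with h4 | h4
  · have m1 : t ∈ Ioo (0 : ℝ) 1 := ⟨ht, h4⟩
    have m2 : t ∈ Ioc (0 : ℝ) 1 := ⟨ht, h4.le⟩
    have m3 : t ∉ Ioi (1 : ℝ) := fun h => by
      have := mem_Ioi.mp h
      linarith
    simp only [WeakFEPair.f_modif, Pi.add_apply, indicator_of_mem m1, indicator_of_mem m2,
      indicator_of_notMem m3, smul_eq_mul]
    ring
  · have m1 : t ∉ Ioo (0 : ℝ) 1 := fun h => by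
      have := h.2
      linarith
    have m2 : t ∉ Ioc (0 : ℝ) 1 := fun h => by
      have := h.2
      linarith
    have m3 : t ∈ Ioi (1 : ℝ) := h4
    simp only [WeakFEPair.f_modif, Pi.add_apply, indicator_of_notMem m1, indicator_of_notMem m2,
      indicator_of_mem m3, smul_eq_mul]
    ring

/-- the completed zeta function on the critical line -/
def X (y : ℝ) : ℂ := completedRiemannZeta (1 / 2 + 2 * y * I)

/-- the point `1/4 + i y` -/
def pt (y : ℝ) : ℂ := ((1 / 4 : ℝ) : ℂ) + y * I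

theorem pt_re (y : ℝ) : (pt y).re = 1 / 4 := by
  simp only [pt, add_re, ofReal_re, mul_re, I_re, mul_zero, ofReal_im, I_im, mul_one, sub_self,
    add_zero]

theorem pt_ne_zero (y : ℝ) : pt y ≠ 0 := by
  intro h
  have := pt_re y
  rw [h, zero_re] at this
  norm_num at this

theorem pt_ne_half (y : ℝ) : pt y ≠ 1 / 2 := by
  intro h
  have h1 := pt_re y
  rw [h, show (1 / 2 : ℂ) = ((1 / 2 : ℝ) : ℂ) by push_cast; rfl, ofReal_re] at h1
  norm_num at h1

theorem rotPair_Λ_pt {φ : ℝ} (h1 : -(π / 2) < φ) (h2 : φ < π / 2) (y : ℝ) :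
    (rotPair h1 h2).Λ (pt y) = 2 * cexp (-(φ / 4 * I)) * (Real.exp (φ * y) : ℂ) * X y := by
  rw [rotPair_Λ h1 h2 (pt_ne_zero y) (pt_ne_half y), X]
  have e1 : 2 * pt y = 1 / 2 + 2 * y * I := by
    rw [pt]
    push_cast
    ring
  have e2 : cexp (-(φ * I * pt y)) = cexp (-(φ / 4 * I)) * (Real.exp (φ * y) : ℂ) := by
    rw [ofReal_exp, ← Complex.exp_add]
    congr 1
    rw [pt]
    push_cast
    linear_combination (-(φ : ℂ) * y) * I_mul_I
  rw [e1, e2]
  ring

theorem norm_exp_I (x : ℝ) : ‖cexp (-((x : ℂ) * I))‖ = 1 := by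
  rw [← neg_mul, ← ofReal_neg, norm_exp_ofReal_mul_I]

theorem norm_rotPair_Λ_pt {φ : ℝ} (h1 : -(π / 2) < φ) (h2 : φ < π / 2) (y : ℝ) :
    ‖(rotPair h1 h2).Λ (pt y)‖ = 2 * Real.exp (φ * y) * ‖X y‖ := by
  rw [rotPair_Λ_pt, norm_mul, norm_mul, norm_mul, Complex.norm_ofNat, norm_real, Real.norm_eq_abs,
    abs_of_pos (Real.exp_pos _)]
  have h3 : ‖cexp (-(φ / 4 * I))‖ = 1 := by
    have := norm_exp_I (φ / 4)
    push_cast at this
    exact this
  rw [h3, mul_one]

/-- boundedness on the line, one `φ` -/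
theorem exists_bound_exp_X {φ : ℝ} (h1 : -(π / 2) < φ) (h2 : φ < π / 2) :
    ∃ C : ℝ, ∀ y : ℝ, Real.exp (φ * y) * ‖X y‖ ≤ C := by
  obtain ⟨C₀, hC₀⟩ := exists_bound_Λ₀ (rotPair h1 h2) (1 / 4) (1 / 4)
  refine ⟨C₀ + 4 + 4, fun y => ?_⟩
  have h3 := norm_rotPair_Λ_pt h1 h2 y
  have h4 : ‖(rotPair h1 h2).Λ₀ (pt y)‖ ≤ C₀ :=
    hC₀ _ (by rw [pt_re]) (by rw [pt_re])
  have h5 : ‖(1 / pt y) • (rotPair h1 h2).f₀‖ ≤ 4 := by
    change ‖(1 / pt y) • (1 : ℂ)‖ ≤ 4
    rw [smul_eq_mul, mul_one, norm_div, norm_one]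
    have h6 : 1 / 4 ≤ ‖pt y‖ := by
      have := Complex.re_le_norm (pt y)
      rwa [pt_re] at this
    rw [div_le_iff₀ (by linarith)]
    linarith
  have h7 : ‖((rotPair h1 h2).ε / ((rotPair h1 h2).k - pt y)) • (rotPair h1 h2).g₀‖ ≤ 4 := by
    change ‖(cexp (-(φ / 2 * I)) / (((1 / 2 : ℝ) : ℂ) - pt y)) • (1 : ℂ)‖ ≤ 4
    have h8 : ‖cexp (-(φ / 2 * I))‖ = 1 := by
      have := norm_exp_I (φ / 2)
      push_cast at this
      exact this
    rw [smul_eq_mul, mul_one, norm_div, h8]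
    have h9 : 1 / 4 ≤ ‖((1 / 2 : ℝ) : ℂ) - pt y‖ := by
      have := Complex.re_le_norm (((1 / 2 : ℝ) : ℂ) - pt y)
      rw [sub_re, ofReal_re, pt_re] at this
      linarith
    rw [div_le_iff₀ (by linarith)]
    linarith
  have h10 : ‖(rotPair h1 h2).Λ (pt y)‖ ≤ C₀ + 4 + 4 := by
    rw [WeakFEPair.Λ]
    refine (norm_sub_le _ _).trans ?_
    refine add_le_add ((norm_sub_le _ _).trans ?_) h7
    exact add_le_add h4 h5
  have h11 : 0 ≤ Real.exp (φ * y) * ‖X y‖ := by positivity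
  rw [h3] at h10
  linarith

/-- **Exponential decay of the completed zeta function on the critical line.** -/
theorem exists_bound_X {ψ : ℝ} (h0 : 0 ≤ ψ) (h2 : ψ < π / 2) :
    ∃ C : ℝ, ∀ y : ℝ, ‖X y‖ ≤ C * Real.exp (-ψ * |y|) := by
  obtain ⟨C₁, hC₁⟩ := exists_bound_exp_X (φ := ψ) (by linarith [Real.pi_pos]) h2
  obtain ⟨C₂, hC₂⟩ := exists_bound_exp_X (φ := -ψ) (by linarith) (by linarith [Real.pi_pos])
  refine ⟨max C₁ C₂, fun y => ?_⟩
  have key : Real.exp (ψ * |y|) * ‖X y‖ ≤ max C₁ C₂ := by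
    rcases abs_cases y with ⟨h, _⟩ | ⟨h, _⟩
    · rw [h]
      exact (hC₁ y).trans (le_max_left _ _)
    · rw [h, mul_neg, ← neg_mul]
      exact (hC₂ y).trans (le_max_right _ _)
  have h3 : Real.exp (-ψ * |y|) * Real.exp (ψ * |y|) = 1 := by
    rw [← Real.exp_add]
    simp
  calc ‖X y‖ = Real.exp (-ψ * |y|) * (Real.exp (ψ * |y|) * ‖X y‖) := by
        rw [← mul_assoc, h3, one_mul]
    _ ≤ Real.exp (-ψ * |y|) * max C₁ C₂ := by gcongr
    _ = _ := mul_comm _ _

theorem integrable_exp_abs {b : ℝ} (hb : 0 < b) :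
    Integrable (fun y : ℝ => Real.exp (-b * |y|)) := by
  have h1 : IntegrableOn (fun y : ℝ => Real.exp (-b * |y|)) (Ioi 0) := by
    refine (integrableOn_exp_mul_Ioi (neg_neg_of_pos hb) 0).congr_fun (fun y hy => ?_)
      measurableSet_Ioi
    rw [abs_of_pos hy]
  have h2 : IntegrableOn (fun y : ℝ => Real.exp (-b * |y|)) (Iic 0) := by
    refine (integrableOn_exp_mul_Iic hb 0).congr_fun (fun y hy => ?_) measurableSet_Iic
    rw [abs_of_nonpos hy, neg_mul_neg]
  rw [← integrableOn_univ, ← Iic_union_Ioi (a := (0 : ℝ))]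
  exact h2.union h1

theorem continuous_X : Continuous X := by
  rw [continuous_iff_continuousAt]
  intro y
  have h0 : (1 / 2 + 2 * y * I : ℂ).re = 1 / 2 := by
    simp
  have h1 : (1 / 2 + 2 * y * I : ℂ) ≠ 0 := by
    intro h
    rw [h, zero_re] at h0
    norm_num at h0
  have h2 : (1 / 2 + 2 * y * I : ℂ) ≠ 1 := by
    intro h
    rw [h, one_re] at h0
    norm_num at h0
  exact ContinuousAt.comp (f := fun y : ℝ => (1 / 2 + 2 * y * I : ℂ)) (g := completedRiemannZeta)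
    (differentiableAt_completedZeta h1 h2).continuousAt (by fun_prop)

/-- integrability of `e^{φ y} ‖X y‖` -/
theorem integrable_exp_X {φ : ℝ} (h1 : -(π / 2) < φ) (h2 : φ < π / 2) :
    Integrable (fun y : ℝ => (Real.exp (φ * y) : ℂ) * X y) := by
  have habs : |φ| < π / 2 := abs_lt.mpr ⟨h1, h2⟩
  obtain ⟨C, hC⟩ := exists_bound_X (ψ := (|φ| + π / 2) / 2) (by positivity) (by linarith)
  have hb : 0 < (|φ| + π / 2) / 2 - |φ| := by linarith
  refine ((integrable_exp_abs hb).const_mul C).mono' ?_ (Eventually.of_forall fun y => ?_)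
  · exact (Continuous.mul (by fun_prop) continuous_X).aestronglyMeasurable
  · rw [norm_mul, norm_real, Real.norm_eq_abs, abs_of_pos (Real.exp_pos _)]
    have h3 : Real.exp (φ * y) ≤ Real.exp (|φ| * |y|) := by
      rw [← abs_mul]
      exact Real.exp_le_exp.mpr (le_abs_self _)
    calc Real.exp (φ * y) * ‖X y‖
        ≤ Real.exp (|φ| * |y|) * (C * Real.exp (-((|φ| + π / 2) / 2) * |y|)) := by
          refine mul_le_mul h3 (hC y) (norm_nonneg _) (Real.exp_nonneg _)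
      _ = C * (Real.exp (|φ| * |y|) * Real.exp (-((|φ| + π / 2) / 2) * |y|)) := by ring
      _ = C * Real.exp (-((|φ| + π / 2) / 2 - |φ|) * |y|) := by
          rw [← Real.exp_add]
          congr 2
          ring

/-- **Mellin inversion on the critical line.** -/
theorem inversion {φ : ℝ} (h1 : -(π / 2) < φ) (h2 : φ < π / 2) {x : ℝ} (hx : 0 < x) :
    (1 / (2 * π) : ℝ) • ∫ y : ℝ, (x : ℂ) ^ (-(((1 / 4 : ℝ) : ℂ) + y * I)) •
      (2 * cexp (-(φ / 4 * I)) * (Real.exp (φ * y) : ℂ) * X y) =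
      th (cexp (φ * I) * x) - 1 - cexp (-(φ / 2 * I)) * ((x ^ (-(1 / 2) : ℝ) : ℝ) : ℂ) := by
  set P := rotPair h1 h2 with hP
  set H : ℝ → ℂ := fun x : ℝ => P.f x - P.f₀ - P.ε * ((x ^ (-P.k) : ℝ) : ℂ) * P.g₀ with hH
  have hk : P.k = 1 / 2 := rfl
  have hm : ∀ y : ℝ, HasMellin H (pt y) (P.Λ (pt y)) := fun y =>
    hasMellin_strip P (by rw [pt_re]; norm_num) (by rw [pt_re, hk]; norm_num)
  have hconv : MellinConvergent H (((1 / 4 : ℝ)) : ℂ) := by
    have := (hm 0).1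
    rw [pt, ofReal_zero, zero_mul, add_zero] at this
    exact this
  have hvert : VerticalIntegrable (mellin H) (1 / 4) := by
    have h3 := (integrable_exp_X h1 h2).const_mul (2 * cexp (-(φ / 4 * I)))
    refine h3.congr (Eventually.of_forall fun y => ?_)
    have h4 := (hm y).2
    rw [rotPair_Λ_pt h1 h2 y] at h4
    change _ = mellin H (pt y)
    rw [h4]
    ring
  have hc : 0 < Real.cos φ := Real.cos_pos_of_mem_Ioo ⟨h1, h2⟩
  have hcont : ContinuousAt H x := by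
    have h3 : ContinuousAt P.f x := (continuousOn_rot hc).continuousAt (Ioi_mem_nhds hx)
    have h4 : ContinuousAt (fun x : ℝ => ((x ^ (-P.k) : ℝ) : ℂ)) x :=
      (Complex.continuous_ofReal.continuousAt).comp
        (Real.continuousAt_rpow_const x (-P.k) (Or.inl hx.ne'))
    exact (h3.sub continuousAt_const).sub ((continuousAt_const.mul h4).mul continuousAt_const)
  have key := mellinInv_mellin_eq (1 / 4) H hx hconv hvert hcont
  have hval : H x = th (cexp (φ * I) * x) - 1 -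
      cexp (-(φ / 2 * I)) * ((x ^ (-(1 / 2) : ℝ) : ℝ) : ℂ) := by
    rw [hH]
    change th (cexp (φ * I) * x) - 1 - cexp (-(φ / 2 * I)) * ((x ^ (-(1 / 2) : ℝ) : ℝ) : ℂ) * 1 = _
    rw [mul_one]
  rw [hval, mellinInv] at key
  rw [← key]
  congr 1
  refine integral_congr_ae (Eventually.of_forall fun y => ?_)
  have h4 := (hm y).2
  rw [rotPair_Λ_pt h1 h2 y] at h4
  change (x : ℂ) ^ (-pt y) • _ = (x : ℂ) ^ (-pt y) • mellin H (pt y)
  rw [h4]

end Fermat.Agent.Cor.Hardy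

end
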