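import Fermat.Agent.Corollaries.ZetaK.Hardy.Invert

/-!
# Hardy's theorem

`hardy`: the Riemann zeta function has infinitely many zeros on the critical line.

Proof: if not, `ξ(1/2 + 2 i y)` (real, even) has constant sign for `|y| > T`. Mellin inversion for the
rotated theta function gives, for `φ < π/2`,
`(1/π) e^{-iφ/4} ∫ x^{-1/4 - i y} e^{φ y} ξ(1/2 + 2 i y) dy = θ(e^{iφ} x) - 1 - e^{-iφ/2} x^{-1/2}`.
For `x = 1` the right hand side is bounded as `φ → π/2`, since `θ` vanishes at the cusp `i`, hence so is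
`∫ e^{φ y} |ξ(1/2 + 2 i y)| dy`; but for `x = 2` the right hand side is unbounded, since `θ` has a pole at
the cusp `2 i`.
-/

set_option autoImplicit false

noncomputable section

namespace Fermat.Agent.Cor.Hardy

open Complex Real Filter Topology Set MeasureTheory ComplexConjugate

theorem Gammaℝ_conj (s : ℂ) : Gammaℝ (conj s) = conj (Gammaℝ s) := by
  have h1 : ∀ z : ℂ, (π : ℂ) ^ (conj z) = conj ((π : ℂ) ^ z) := by
    intro z
    have hpi : (π : ℂ) ≠ 0 := by exact_mod_cast Real.pi_ne_zero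
    rw [cpow_def_of_ne_zero hpi, cpow_def_of_ne_zero hpi, ← exp_conj, map_mul,
      ← ofReal_log Real.pi_pos.le, conj_ofReal]
  rw [Gammaℝ_def, Gammaℝ_def, map_mul, ← h1, ← Complex.Gamma_conj, map_div₀, map_div₀, map_neg,
    map_ofNat]

theorem completedRiemannZeta_conj {s : ℂ} (hs : 0 < s.re) :
    completedRiemannZeta (conj s) = conj (completedRiemannZeta s) := by
  have h0 : s ≠ 0 := by
    rintro rfl
    rw [zero_re] at hs
    exact lt_irrefl _ hs
  have h0' : conj s ≠ 0 := by
    rwa [Ne, map_eq_zero]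
  have hs' : 0 < (conj s).re := by rwa [conj_re]
  have h1 := riemannZeta_def_of_ne_zero h0
  have h2 := riemannZeta_def_of_ne_zero h0'
  have h3 := riemannZeta_conj s
  have g1 := Gammaℝ_ne_zero_of_re_pos hs
  have g2 := Gammaℝ_ne_zero_of_re_pos hs'
  rw [h1, h2, map_div₀, ← Gammaℝ_conj] at h3
  exact (div_left_inj' g2).mp h3

theorem X_conj (y : ℝ) : conj (X y) = X y := by
  have h1 : conj (1 / 2 + 2 * y * I : ℂ) = 1 - (1 / 2 + 2 * y * I) := by
    simp only [map_add, map_mul, map_div₀, map_one, map_ofNat, conj_ofReal, conj_I]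
    ring
  rw [X, ← completedRiemannZeta_conj (by simp), h1, completedRiemannZeta_one_sub]

theorem X_neg (y : ℝ) : X (-y) = X y := by
  have h1 : (1 / 2 + 2 * ((-y : ℝ) : ℂ) * I : ℂ) = 1 - (1 / 2 + 2 * y * I) := by
    push_cast
    ring
  rw [X, h1, completedRiemannZeta_one_sub, X]

theorem X_eq_re (y : ℝ) : X y = ((X y).re : ℂ) := (conj_eq_iff_re.mp (X_conj y)).symm

theorem norm_X (y : ℝ) : ‖X y‖ = |(X y).re| := by
  rw [X_eq_re y, norm_real, Real.norm_eq_abs, ofReal_re]

/-- the sign of a continuous function without zeros on a half line -/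
theorem sign_of_ne_zero {f : ℝ → ℝ} (hf : Continuous f) {T : ℝ} (h : ∀ y, T < y → f y ≠ 0) :
    ∃ σ : ℝ, (σ = 1 ∨ σ = -1) ∧ ∀ y, T < y → 0 < σ * f y := by
  have hT : T + 1 ∈ Ioi T := by
    simp only [mem_Ioi]
    linarith
  have hpre : IsPreconnected (Ioi T) := isPreconnected_Ioi
  rcases lt_or_gt_of_ne (h (T + 1) hT) with h0 | h0
  · refine ⟨-1, Or.inr rfl, fun y hy => ?_⟩
    by_contra hcon
    have h1 : 0 ≤ f y := by linarith
    obtain ⟨z, hz, hz0⟩ := hpre.intermediate_value hT (show y ∈ Ioi T from hy) hf.continuousOn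
      (show (0 : ℝ) ∈ Icc (f (T + 1)) (f y) from ⟨h0.le, h1⟩)
    exact h z hz hz0
  · refine ⟨1, Or.inl rfl, fun y hy => ?_⟩
    by_contra hcon
    have h1 : f y ≤ 0 := by linarith
    obtain ⟨z, hz, hz0⟩ := hpre.intermediate_value (show y ∈ Ioi T from hy) hT hf.continuousOn
      (show (0 : ℝ) ∈ Icc (f y) (f (T + 1)) from ⟨h1, h0.le⟩)
    exact h z hz hz0

/-- **Constant sign is impossible.** -/
theorem false_of_sign {T σ : ℝ} (hσ : σ = 1 ∨ σ = -1)
    (h : ∀ y : ℝ, T < |y| → 0 < σ * (X y).re) : False := by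
  have hpi := Real.pi_pos
  have hσa : |σ| = 1 := by rcases hσ with rfl | rfl <;> simp
  have hint0 : Integrable (fun y : ℝ => ‖X y‖) := by
    have h1 := (integrable_exp_X (φ := 0) (by linarith) (by linarith)).norm
    refine h1.congr (Eventually.of_forall fun y => ?_)
    simp only [zero_mul, Real.exp_zero, ofReal_one, one_mul]
  set K₀ : ℝ := ∫ y, ‖X y‖ with hK₀
  have hK₀0 : 0 ≤ K₀ := integral_nonneg fun _ => norm_nonneg _
  set E : ℝ := 2 * Real.exp (π / 2 * T) with hE
  have hE0 : 0 < E := by positivity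
  set B : ℝ := 28 + E * K₀ / π with hB
  have hB28 : 28 ≤ B := by
    have : 0 ≤ E * K₀ / π := by positivity
    linarith
  set c : ℝ := (1 / (4 * (B + 1))) ^ 2 with hc
  have hc0 : 0 < c := by positivity
  have hc8 : c ≤ 1 / 8 := by
    have h1 : 1 / (4 * (B + 1)) ≤ 1 / 4 :=
      one_div_le_one_div_of_le (by norm_num) (by linarith)
    have h2 : 0 < 1 / (4 * (B + 1)) := by positivity
    rw [hc]
    nlinarith
  have hsqrt : √c = 1 / (4 * (B + 1)) := by
    rw [hc, Real.sqrt_sq (by positivity)]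
  set φ : ℝ := Real.arccos c with hφ
  have hcos : Real.cos φ = c := Real.cos_arccos (by linarith) (by linarith)
  have hφ0 : 0 ≤ φ := Real.arccos_nonneg c
  have hφ2 : φ < π / 2 := Real.arccos_lt_pi_div_two.mpr hc0
  have hφ1 : -(π / 2) < φ := by linarith
  have hsin : 0 ≤ Real.sin φ := Real.sin_nonneg_of_nonneg_of_le_pi hφ0 (by linarith)
  have hintφ := integrable_exp_X hφ1 hφ2
  set J : ℝ := ∫ y : ℝ, Real.exp (φ * y) * ‖X y‖ with hJ
  set M : ℂ := ∫ y : ℝ, (Real.exp (φ * y) : ℂ) * X y with hM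
  have hintJ : Integrable (fun y : ℝ => Real.exp (φ * y) * ‖X y‖) := by
    refine hintφ.norm.congr (Eventually.of_forall fun y => ?_)
    simp only [norm_mul, norm_real, Real.norm_eq_abs, abs_of_pos (Real.exp_pos _)]
  -- `J ≤ ‖M‖ + E K₀`
  have hJM : J ≤ ‖M‖ + E * K₀ := by
    have hintR : Integrable (fun y : ℝ => σ * (Real.exp (φ * y) * (X y).re)) := by
      have h1 := hintφ.re.const_mul σ
      refine h1.congr (Eventually.of_forall fun y => ?_)
      simp only [RCLike.re_to_complex, re_ofReal_mul]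
    have h1 : J ≤ ∫ y : ℝ, (σ * (Real.exp (φ * y) * (X y).re) + E * ‖X y‖) := by
      refine integral_mono hintJ (hintR.add (hint0.const_mul E)) fun y => ?_
      simp only
      have hexp := Real.exp_pos (φ * y)
      rcases lt_or_ge T |y| with hy | hy
      · have h2 := h y hy
        have h3 : ‖X y‖ = σ * (X y).re := by
          rw [norm_X]
          rcases hσ with rfl | rfl
          · rw [one_mul] at h2 ⊢
            exact abs_of_pos h2
          · rw [neg_one_mul] at h2 ⊢
            exact abs_of_neg (by linarith)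
        have h4 : 0 ≤ E * ‖X y‖ := by positivity
        have h5 : Real.exp (φ * y) * ‖X y‖ = σ * (Real.exp (φ * y) * (X y).re) := by
          rw [h3]; ring
        linarith
      · have h2 : Real.exp (φ * y) ≤ Real.exp (π / 2 * T) := by
          refine Real.exp_le_exp.mpr ?_
          calc φ * y ≤ |φ * y| := le_abs_self _
            _ = φ * |y| := by rw [abs_mul, abs_of_nonneg hφ0]
            _ ≤ π / 2 * T := by gcongr
        have h3 : -(σ * (Real.exp (φ * y) * (X y).re)) ≤ Real.exp (φ * y) * ‖X y‖ := by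
          refine (neg_le_abs _).trans ?_
          rw [abs_mul, hσa, one_mul, abs_mul, abs_of_pos hexp, norm_X]
        have h4 : Real.exp (φ * y) * ‖X y‖ ≤ Real.exp (π / 2 * T) * ‖X y‖ :=
          mul_le_mul_of_nonneg_right h2 (norm_nonneg _)
        rw [hE]
        linarith
    have h2 : ∫ y : ℝ, (σ * (Real.exp (φ * y) * (X y).re) + E * ‖X y‖) =
        σ * M.re + E * K₀ := by
      rw [integral_add hintR (hint0.const_mul E), integral_const_mul, integral_const_mul]
      congr 2
      have h3 := integral_re hintφ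
      simp only [RCLike.re_to_complex] at h3
      rw [hM, ← h3]
      refine integral_congr_ae (Eventually.of_forall fun y => ?_)
      simp only [re_ofReal_mul]
    rw [h2] at h1
    have h3 : σ * M.re ≤ ‖M‖ := by
      calc σ * M.re ≤ |σ * M.re| := le_abs_self _
        _ = |M.re| := by rw [abs_mul, hσa, one_mul]
        _ ≤ ‖M‖ := abs_re_le_norm M
    linarith
  -- `x = 1`
  have hMle : ‖M‖ ≤ 26 * π := by
    have h1 := inversion hφ1 hφ2 one_pos
    simp only [ofReal_one, one_cpow, one_smul, mul_one, Real.one_rpow] at h1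
    have h2 : ∫ y : ℝ, (2 * cexp (-(φ / 4 * I)) * (Real.exp (φ * y) : ℂ) * X y) =
        2 * cexp (-(φ / 4 * I)) * M := by
      rw [hM, ← integral_const_mul]
      refine integral_congr_ae (Eventually.of_forall fun y => ?_)
      simp only
      ring
    rw [h2] at h1
    have h3 : ‖cexp (-(φ / 4 * I))‖ = 1 := by
      have := norm_exp_I (φ / 4)
      push_cast at this
      exact this
    have h4 : ‖cexp (-(φ / 2 * I))‖ = 1 := by
      have := norm_exp_I (φ / 2)
      push_cast at this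
      exact this
    have h5 := congrArg norm h1
    rw [norm_smul, norm_mul, norm_mul, h3, Complex.norm_ofNat, Real.norm_eq_abs,
      abs_of_pos (by positivity)] at h5
    have h6 : ‖th (cexp (φ * I)) - 1 - cexp (-(φ / 2 * I))‖ ≤ 24 + 1 + 1 := by
      refine (norm_sub_le _ _).trans (add_le_add ((norm_sub_le _ _).trans
        (add_le_add (norm_th_unit_le ?_ ?_ hsin) ?_)) h4.le)
      · rw [hcos]; exact hc0
      · rw [hcos]; exact hc8
      · rw [norm_one]
    rw [← h5] at h6
    have h7 : 1 / (2 * π) * (2 * 1 * ‖M‖) = ‖M‖ / π := by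
      field_simp
    rw [h7, div_le_iff₀ hpi] at h6
    linarith
  -- `x = 2`
  have hJge : 1 / (4 * √c) - 2 ≤ J / π := by
    have h1 := inversion hφ1 hφ2 two_pos
    have h3 : ‖cexp (-(φ / 4 * I))‖ = 1 := by
      have := norm_exp_I (φ / 4)
      push_cast at this
      exact this
    have h4 : ‖cexp (-(φ / 2 * I))‖ = 1 := by
      have := norm_exp_I (φ / 2)
      push_cast at this
      exact this
    have h5 := congrArg norm h1
    have h6 : 1 / (4 * √c) - 2 ≤ ‖th (cexp (φ * I) * ((2 : ℝ) : ℂ)) - 1 -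
        cexp (-(φ / 2 * I)) * (((2 : ℝ) ^ (-(1 / 2) : ℝ) : ℝ) : ℂ)‖ := by
      have h7 := le_norm_th_two (φ := φ) (by rw [hcos]; exact hc0) (by rw [hcos]; exact hc8) hsin
      rw [hcos] at h7
      have h8 : th (cexp (φ * I) * ((2 : ℝ) : ℂ)) = th (2 * cexp (φ * I)) := by
        congr 1
        push_cast
        ring
      rw [h8]
      have h9 : ‖cexp (-(φ / 2 * I)) * (((2 : ℝ) ^ (-(1 / 2) : ℝ) : ℝ) : ℂ)‖ ≤ 1 := by
        rw [norm_mul, h4, one_mul, norm_real, Real.norm_eq_abs, abs_of_pos (by positivity)]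
        exact Real.rpow_le_one_of_one_le_of_nonpos (by norm_num) (by norm_num)
      have h10 : ‖th (2 * cexp (φ * I))‖ ≤ ‖th (2 * cexp (φ * I)) - 1 -
          cexp (-(φ / 2 * I)) * (((2 : ℝ) ^ (-(1 / 2) : ℝ) : ℝ) : ℂ)‖ + 1 + 1 := by
        calc ‖th (2 * cexp (φ * I))‖ = ‖(th (2 * cexp (φ * I)) - 1 -
              cexp (-(φ / 2 * I)) * (((2 : ℝ) ^ (-(1 / 2) : ℝ) : ℝ) : ℂ)) +
              cexp (-(φ / 2 * I)) * (((2 : ℝ) ^ (-(1 / 2) : ℝ) : ℝ) : ℂ) + 1‖ := by
              congr 1; ring
          _ ≤ _ := by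
              refine (norm_add_le _ _).trans ?_
              rw [norm_one]
              exact add_le_add ((norm_add_le _ _).trans (add_le_add le_rfl h9)) le_rfl
      linarith
    rw [← h5, norm_smul, Real.norm_eq_abs, abs_of_pos (by positivity)] at h6
    have h7 : ‖∫ y : ℝ, ((2 : ℝ) : ℂ) ^ (-(((1 / 4 : ℝ) : ℂ) + y * I)) •
        (2 * cexp (-(φ / 4 * I)) * (Real.exp (φ * y) : ℂ) * X y)‖ ≤ 2 * J := by
      rw [hJ, ← integral_const_mul]
      refine norm_integral_le_of_norm_le (hintJ.const_mul 2) (Eventually.of_forall fun y => ?_)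
      rw [norm_smul, norm_mul, norm_mul, norm_mul, h3, Complex.norm_ofNat, norm_real,
        Real.norm_eq_abs, abs_of_pos (Real.exp_pos _), norm_cpow_eq_rpow_re_of_pos two_pos]
      have h8 : (2 : ℝ) ^ (-(((1 / 4 : ℝ) : ℂ) + y * I)).re ≤ 1 := by
        refine Real.rpow_le_one_of_one_le_of_nonpos (by norm_num) ?_
        have := pt_re y
        rw [pt] at this
        rw [neg_re, this]
        norm_num
      calc (2 : ℝ) ^ (-(((1 / 4 : ℝ) : ℂ) + y * I)).re * (2 * 1 * Real.exp (φ * y) * ‖X y‖)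
          ≤ 1 * (2 * 1 * Real.exp (φ * y) * ‖X y‖) := by gcongr
        _ = 2 * (Real.exp (φ * y) * ‖X y‖) := by ring
    calc 1 / (4 * √c) - 2 ≤ 1 / (2 * π) * (2 * J) := h6.trans (by gcongr)
      _ = J / π := by field_simp
  have hfin : 1 / (4 * √c) = B + 1 := by
    rw [hsqrt]
    field_simp
  rw [hfin] at hJge
  have h10 : J / π ≤ 26 + E * K₀ / π := by
    rw [div_le_iff₀ hpi]
    have : (26 + E * K₀ / π) * π = 26 * π + E * K₀ := by field_simp
    rw [this]
    linarith
  linarith

/-- **Hardy's theorem**: the Riemann zeta function has infinitely many zeros on the critical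
line. -/
theorem hardy : {t : ℝ | riemannZeta (1 / 2 + t * I) = 0}.Infinite := by
  intro hfin
  obtain ⟨T₀, hT₀⟩ := hfin.bddAbove
  obtain ⟨T₁, hT₁⟩ := hfin.bddBelow
  set T : ℝ := max (max T₀ (-T₁)) 0 with hT
  have hT0 : 0 ≤ T := le_max_right _ _
  have hne : ∀ y : ℝ, T < y → (X y).re ≠ 0 := by
    intro y hy h0
    have h1 : X y = 0 := by rw [X_eq_re, h0, ofReal_zero]
    have h2 : riemannZeta (1 / 2 + ((2 * y : ℝ) : ℂ) * I) = 0 := by
      have h3 : (1 / 2 + ((2 * y : ℝ) : ℂ) * I) = 1 / 2 + 2 * y * I := by push_cast; ring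
      have h4 : (1 / 2 + 2 * y * I : ℂ) ≠ 0 := by
        intro h
        have h5 : (1 / 2 + 2 * y * I : ℂ).re = 1 / 2 := by simp
        rw [h, zero_re] at h5
        norm_num at h5
      rw [h3, riemannZeta_def_of_ne_zero h4]
      rw [X] at h1
      rw [h1, zero_div]
    have h3 : 2 * y ≤ T₀ := hT₀ h2
    have h4 : T₀ ≤ T := (le_max_left _ _).trans (le_max_left _ _)
    linarith
  have hcont : Continuous fun y : ℝ => (X y).re := continuous_re.comp continuous_X
  obtain ⟨σ, hσ, hpos⟩ := sign_of_ne_zero hcont hne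
  refine false_of_sign hσ (T := T) fun y hy => ?_
  rcases abs_cases y with ⟨h, _⟩ | ⟨h, _⟩
  · rw [h] at hy
    exact hpos y hy
  · rw [h] at hy
    have := hpos (-y) hy
    rwa [X_neg] at this

end Fermat.Agent.Cor.Hardy

end
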