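import Fermat.Agent.Corollaries.ZetaK.Hardy.Theta
import Fermat.Agent.Corollaries.ZetaK.Hardy.GammaRot
import Fermat.Agent.Classic.Zeta.Ident

/-!
# The rotated theta functions

For `-π/2 < φ < π/2` the functions `x ↦ θ(e^{iφ} x)`, `x ↦ θ(e^{-iφ} x)` form a weak FE pair of weight
`1/2`, and `Λ_φ(s) = 2 e^{-iφ s} ξ(2 s)`, `ξ` the completed Riemann zeta function
(`rotPair_Λ`).
-/

set_option autoImplicit false

noncomputable section

namespace Fermat.Agent.Cor.Hardy

open Complex Real Filter Topology Set MeasureTheory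

theorem rot_re (φ x : ℝ) : (cexp (φ * I) * x).re = Real.cos φ * x := by
  rw [mul_comm, re_ofReal_mul, exp_ofReal_mul_I_re, mul_comm]

theorem log_rot {φ : ℝ} (h1 : -(π / 2) < φ) (h2 : φ < π / 2) {x : ℝ} (hx : 0 < x) :
    Complex.log (cexp (φ * I) * x) = Real.log x + φ * I := by
  have hpi := Real.pi_pos
  rw [mul_comm, Complex.log_ofReal_mul hx (Complex.exp_ne_zero _), Complex.log_exp]
  · simp only [mul_im, ofReal_re, I_im, mul_one, ofReal_im, I_re, mul_zero, add_zero]
    linarith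
  · simp only [mul_im, ofReal_re, I_im, mul_one, ofReal_im, I_re, mul_zero, add_zero]
    linarith

theorem continuousOn_rot {φ : ℝ} (hc : 0 < Real.cos φ) :
    ContinuousOn (fun x : ℝ => th (cexp (φ * I) * x)) (Ioi 0) := by
  intro x hx
  have hx' : 0 < x := hx
  have h : 0 < (cexp (φ * I) * x).re := by
    rw [rot_re]
    positivity
  refine ContinuousAt.continuousWithinAt ?_
  exact ContinuousAt.comp (f := fun x : ℝ => cexp (φ * I) * (x : ℂ)) (g := th)
    (differentiableAt_th h).continuousAt (by fun_prop)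

theorem isBigO_rot {φ : ℝ} (hc : 0 < Real.cos φ) (r : ℝ) :
    (fun x : ℝ => th (cexp (φ * I) * x) - 1) =O[atTop] fun x : ℝ => x ^ r := by
  have hpi := Real.pi_pos
  have h1 : (fun x : ℝ => th (cexp (φ * I) * x) - 1) =O[atTop]
      fun x : ℝ => Real.exp (-(π * Real.cos φ) * x) := by
    refine Asymptotics.IsBigO.of_bound 4 ?_
    filter_upwards [eventually_ge_atTop (1 / Real.cos φ)] with x hx
    have h2 : 1 ≤ (cexp (φ * I) * x).re := by
      rw [rot_re]
      rw [div_le_iff₀ hc] at hx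
      linarith
    refine (norm_th_sub_one_le h2).trans ?_
    rw [rot_re, Real.norm_eq_abs, abs_of_pos (Real.exp_pos _)]
    rw [show -(π * (Real.cos φ * x)) = -(π * Real.cos φ) * x by ring]
  exact h1.trans (isLittleO_exp_neg_mul_rpow_atTop (by positivity) r).isBigO

/-- **The rotated theta functions as a weak FE pair.** -/
def rotPair {φ : ℝ} (h1 : -(π / 2) < φ) (h2 : φ < π / 2) : WeakFEPair ℂ where
  f x := th (cexp (φ * I) * x)
  g x := th (cexp ((-φ : ℝ) * I) * x)
  k := 1 / 2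
  ε := cexp (-(φ / 2 * I))
  f₀ := 1
  g₀ := 1
  hf_int := (continuousOn_rot (Real.cos_pos_of_mem_Ioo ⟨h1, h2⟩)).locallyIntegrableOn
    measurableSet_Ioi
  hg_int := (continuousOn_rot (φ := -φ) (by
    rw [Real.cos_neg]
    exact Real.cos_pos_of_mem_Ioo ⟨h1, h2⟩)).locallyIntegrableOn measurableSet_Ioi
  hk := by norm_num
  hε := Complex.exp_ne_zero _
  h_feq x hx := by
    have hx' : 0 < x := hx
    have hc : 0 < Real.cos (-φ) := by
      rw [Real.cos_neg]
      exact Real.cos_pos_of_mem_Ioo ⟨h1, h2⟩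
    have hre : 0 < (cexp ((-φ : ℝ) * I) * x).re := by
      rw [rot_re]
      positivity
    have e1 : cexp (φ * I) * ((1 / x : ℝ) : ℂ) = 1 / (cexp ((-φ : ℝ) * I) * x) := by
      rw [Complex.ofReal_neg, neg_mul, Complex.exp_neg]
      push_cast
      field_simp
    have e2 : (cexp ((-φ : ℝ) * I) * (x : ℂ)) ^ (1 / 2 : ℂ) =
        cexp (-(φ / 2 * I)) * ((x ^ (1 / 2 : ℝ) : ℝ) : ℂ) := by
      have hne : cexp ((-φ : ℝ) * I) * (x : ℂ) ≠ 0 :=
        mul_ne_zero (Complex.exp_ne_zero _) (by exact_mod_cast hx'.ne')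
      rw [Complex.cpow_def_of_ne_zero hne, log_rot (by linarith) (by linarith) hx',
        Real.rpow_def_of_pos hx', Complex.ofReal_exp, ← Complex.exp_add]
      congr 1
      push_cast
      ring
    rw [e1, th_inv hre, e2, smul_eq_mul]
  hf_top r := isBigO_rot (Real.cos_pos_of_mem_Ioo ⟨h1, h2⟩) r
  hg_top r := isBigO_rot (φ := -φ) (by
    rw [Real.cos_neg]
    exact Real.cos_pos_of_mem_Ioo ⟨h1, h2⟩) r

/-- the Mellin transform of the rotated theta function in the half plane of convergence -/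
theorem mellin_rot {φ : ℝ} (h1 : -(π / 2) < φ) (h2 : φ < π / 2) {s : ℂ} (hs : 1 / 2 < s.re) :
    mellin (fun x : ℝ => th (cexp (φ * I) * x) - 1) s =
      2 * cexp (-(φ * I * s)) * completedRiemannZeta (2 * s) := by
  have hpi := Real.pi_pos
  have hc := Real.cos_pos_of_mem_Ioo ⟨h1, h2⟩
  have hs0 : 0 < s.re := by linarith
  set p : ℕ → ℝ := fun n => π * ((n : ℝ) + 1) ^ 2 with hp
  have hp0 : ∀ n, 0 < p n := fun n => by positivity
  set F : ℕ → ℝ → ℂ := fun n t => (t : ℂ) ^ (s - 1) * cexp (-((cexp (φ * I) * p n) * t)) with hF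
  have hrn : ∀ n, 0 < (cexp (φ * I) * (p n : ℂ)).re := fun n => by
    rw [rot_re]
    exact mul_pos hc (hp0 n)
  have hs1 : -1 < (s - 1).re := by
    rw [sub_re, one_re]
    linarith
  have hFint : ∀ n, Integrable (F n) (volume.restrict (Ioi 0)) := fun n =>
    integrableOn_term hs1 (hrn n)
  have hFval : ∀ n, ∫ t in Ioi (0 : ℝ), F n t =
      cexp (-(φ * I * s)) * (Complex.Gamma s * (π : ℂ) ^ (-s) *
        (1 / (((n : ℂ) + 1) ^ (2 * s)))) := by
    intro n
    rw [hF]
    simp only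
    rw [integral_cpow_mul_exp hs0 (hrn n), log_rot h1 h2 (hp0 n)]
    have hn1 : (0 : ℝ) < (n : ℝ) + 1 := by positivity
    have e1 : Real.log (p n) = Real.log π + 2 * Real.log ((n : ℝ) + 1) := by
      rw [hp]
      simp only
      rw [Real.log_mul hpi.ne' (by positivity), Real.log_pow]
      norm_num
    have e2 : (π : ℂ) ^ (-s) = cexp (-((Real.log π : ℝ) : ℂ) * s) := by
      rw [Complex.cpow_def_of_ne_zero (by exact_mod_cast hpi.ne'), ← Complex.ofReal_log hpi.le]
      congr 1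
      ring
    have e3 : 1 / (((n : ℂ) + 1) ^ (2 * s)) =
        cexp (-(2 * ((Real.log ((n : ℝ) + 1) : ℝ) : ℂ) * s)) := by
      rw [show ((n : ℂ) + 1) = (((n : ℝ) + 1 : ℝ) : ℂ) by push_cast; ring,
        Complex.cpow_def_of_ne_zero (by exact_mod_cast hn1.ne'), ← Complex.ofReal_log hn1.le,
        one_div, ← Complex.exp_neg]
      congr 1
      ring
    rw [e1, e2, e3]
    have e4 : cexp (-(φ * I * s)) * (Complex.Gamma s * cexp (-((Real.log π : ℝ) : ℂ) * s) *
        cexp (-(2 * ((Real.log ((n : ℝ) + 1) : ℝ) : ℂ) * s))) =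
        (cexp (-(φ * I * s)) * cexp (-((Real.log π : ℝ) : ℂ) * s) *
          cexp (-(2 * ((Real.log ((n : ℝ) + 1) : ℝ) : ℂ) * s))) * Complex.Gamma s := by ring
    rw [e4, ← Complex.exp_add, ← Complex.exp_add]
    congr 2
    push_cast
    ring
  have hFnorm : ∀ n, ∫ t in Ioi (0 : ℝ), ‖F n t‖ =
      ((π * Real.cos φ) ^ (-s.re) * Real.Gamma s.re) * (((n : ℝ) + 1) ^ (-(2 * s.re))) := by
    intro n
    have e0 : ∀ t ∈ Ioi (0 : ℝ), ‖F n t‖ = t ^ (s.re - 1) *
        Real.exp (-((Real.cos φ * p n) * t)) := by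
      intro t ht
      rw [hF]
      simp only
      rw [norm_cpow_mul_exp ht, rot_re, sub_re, one_re]
      congr 2
      ring
    rw [setIntegral_congr_fun measurableSet_Ioi e0,
      Real.integral_rpow_mul_exp_neg_mul_Ioi hs0 (mul_pos hc (hp0 n))]
    have hn1 : (0 : ℝ) < (n : ℝ) + 1 := by positivity
    have e1 : (1 / (Real.cos φ * p n)) ^ s.re =
        (π * Real.cos φ) ^ (-s.re) * ((n : ℝ) + 1) ^ (-(2 * s.re)) := by
      rw [one_div, Real.inv_rpow (mul_pos hc (hp0 n)).le, ← Real.rpow_neg (mul_pos hc (hp0 n)).le]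
      rw [show Real.cos φ * p n = (π * Real.cos φ) * ((n : ℝ) + 1) ^ 2 by rw [hp]; ring,
        Real.mul_rpow (by positivity) (by positivity), ← Real.rpow_natCast ((n : ℝ) + 1) 2,
        ← Real.rpow_mul hn1.le]
      congr 2
      push_cast
      ring
    rw [e1]
    ring
  have hsumn : Summable fun n : ℕ => ((n : ℝ) + 1) ^ (-(2 * s.re)) := by
    have h3 : Summable fun n : ℕ => (n : ℝ) ^ (-(2 * s.re)) :=
      Real.summable_nat_rpow.mpr (by linarith)
    have h4 := (summable_nat_add_iff 1).mpr h3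
    refine h4.congr fun n => ?_
    push_cast
    rfl
  have hsum : Summable fun n => ∫ t, ‖F n t‖ ∂(volume.restrict (Ioi 0)) := by
    refine (hsumn.mul_left ((π * Real.cos φ) ^ (-s.re) * Real.Gamma s.re)).congr fun n => ?_
    exact (hFnorm n).symm
  have key := hasSum_integral_of_summable_integral_norm hFint hsum
  -- the sum of the functions
  have hsumF : ∀ t ∈ Ioi (0 : ℝ), (∑' n, F n t) =
      (t : ℂ) ^ (s - 1) * ((th (cexp (φ * I) * t) - 1) / 2) := by
    intro t ht
    have ht' : 0 < t := ht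
    have h3 : 0 < (cexp (φ * I) * (t : ℂ)).re := by
      rw [rot_re]
      positivity
    have h4 := (hasSum_th h3).mul_left ((t : ℂ) ^ (s - 1))
    rw [← h4.tsum_eq]
    refine tsum_congr fun n => ?_
    rw [hF]
    simp only
    congr 2
    rw [hp]
    push_cast
    ring
  rw [setIntegral_congr_fun measurableSet_Ioi hsumF] at key
  have h5 : mellin (fun x : ℝ => th (cexp (φ * I) * x) - 1) s =
      2 * ∫ t in Ioi (0 : ℝ), (t : ℂ) ^ (s - 1) * ((th (cexp (φ * I) * t) - 1) / 2) := by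
    rw [mellin, ← integral_const_mul]
    refine setIntegral_congr_fun measurableSet_Ioi fun t _ => ?_
    simp only [smul_eq_mul]
    ring
  have h2s : 1 < (2 * s).re := by
    rw [show (2 * s : ℂ) = ((2 : ℝ) : ℂ) * s by push_cast; rfl, re_ofReal_mul]
    linarith
  have hzeta : ∑' n : ℕ, 1 / ((n : ℂ) ^ (2 * s)) = ∑' n : ℕ, 1 / (((n : ℂ) + 1) ^ (2 * s)) := by
    have h6 : Summable fun n : ℕ => 1 / ((n : ℂ) ^ (2 * s)) :=
      Complex.summable_one_div_nat_cpow.mpr h2s
    have h2s0 : 2 * s ≠ 0 := by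
      intro h
      rw [h, zero_re] at h2s
      linarith
    rw [h6.tsum_eq_zero_add, Nat.cast_zero, zero_cpow h2s0, div_zero, zero_add]
    exact tsum_congr fun n => by push_cast; rfl
  have h6 := key.tsum_eq
  simp_rw [hFval] at h6
  rw [h5, ← h6, tsum_mul_left, tsum_mul_left, completedZeta_eq_tsum_of_one_lt_re h2s, hzeta,
    show (2 * s / 2 : ℂ) = s by ring, show (-(2 * s) / 2 : ℂ) = -s by ring]
  ring

/-- **`Λ_φ(s) = 2 e^{-iφ s} ξ(2 s)`**, `s ≠ 0, 1/2`. -/
theorem rotPair_Λ {φ : ℝ} (h1 : -(π / 2) < φ) (h2 : φ < π / 2) {s : ℂ} (h0 : s ≠ 0)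
    (h0' : s ≠ 1 / 2) :
    (rotPair h1 h2).Λ s = 2 * cexp (-(φ * I * s)) * completedRiemannZeta (2 * s) := by
  have key : ∀ z : ℂ, z ≠ 0 → z ≠ 1 →
      (rotPair h1 h2).Λ (z / 2) = 2 * cexp (-(φ * I * (z / 2))) * completedRiemannZeta z := by
    refine Fermat.Agent.Classic.Zeta.eqOn_compl
      (f := fun z => (rotPair h1 h2).Λ (z / 2))
      (g := fun z => 2 * cexp (-(φ * I * (z / 2))) * completedRiemannZeta z)
      (fun z hz0 hz1 => ?_) (fun z hz0 hz1 => ?_) (fun z hz => ?_)
    · have h3 : DifferentiableAt ℂ (rotPair h1 h2).Λ (z / 2) := by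
        refine (rotPair h1 h2).differentiableAt_Λ (Or.inl ?_) (Or.inl ?_)
        · exact div_ne_zero hz0 two_ne_zero
        · intro h
          apply hz1
          have h4 : z / 2 = ((1 / 2 : ℝ) : ℂ) := h
          push_cast at h4
          linear_combination 2 * h4
      exact DifferentiableAt.comp z (g := (rotPair h1 h2).Λ) (f := fun z : ℂ => z / 2) h3
        (by fun_prop)
    · have h3 := differentiableAt_completedZeta hz0 hz1
      fun_prop
    · have h4 : (rotPair h1 h2).k < (z / 2).re := by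
        rw [show (z / 2 : ℂ) = ((2⁻¹ : ℝ) : ℂ) * z by push_cast; ring, re_ofReal_mul]
        change 1 / 2 < _
        linarith
      have h5 := ((rotPair h1 h2).hasMellin h4).2
      have h6 : 1 / 2 < (z / 2).re := h4
      have h7 := mellin_rot h1 h2 h6
      rw [show (2 * (z / 2) : ℂ) = z by ring] at h7
      rw [← h5, ← h7]
      rfl
  have h3 := key (2 * s) (mul_ne_zero two_ne_zero h0) (fun h => h0' (by linear_combination h / 2))
  rw [show (2 * s / 2 : ℂ) = s by ring] at h3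
  exact h3

end Fermat.Agent.Cor.Hardy

end
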