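import Fermat.Agent.Corollaries.ZetaK.Hardy.Main

/-!
# Sign changes of the completed zeta function on the critical line

`exists_sign_change`: the completed zeta function, real on the critical line, takes both signs above
every height. `exists_odd_zero_gt`, `infinite_odd_zeros`: there are zeros of odd order of the Riemann
zeta function on the critical line above every height.
-/

set_option autoImplicit false

noncomputable section

namespace Fermat.Agent.Cor.Hardy

open Complex Real Filter Topology Set MeasureTheory ComplexConjugate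

/-- **Constant sign is impossible.** -/
theorem false_of_nonneg {T σ : ℝ} (hσ : σ = 1 ∨ σ = -1)
    (h : ∀ y : ℝ, T < |y| → 0 ≤ σ * (X y).re) : False := by
  have hpi := Real.pi_pos
  have hσa : |σ| = 1 := by rcases hσ with rfl | rfl <;> simp
  have hint0 : Integrable (fun y : ℝ => ‖X y‖) := by
    have h1 := (integrable_exp_X (φ := 0) (by linarith) (by linarith)).norm
    refine h1.congr (Eventually.of_forall fun y => ?_)
    simp only [zero_mul, Real.exp_zero, ofReal_one, one_mul]
  set K₀ : ℝ := ∫ y, ‖X y‖ with hK₀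
  have hK₀0 : 0 ≤ K₀ := integral_nonneg fun _ => norm_nonneg _
  set E : ℝ := 2 * Real.exp (π / 2 * T) with hE
  have hE0 : 0 < E := by positivity
  set B : ℝ := 28 + E * K₀ / π with hB
  have hB28 : 28 ≤ B := by
    have : 0 ≤ E * K₀ / π := by positivity
    linarith
  set c : ℝ := (1 / (4 * (B + 1))) ^ 2 with hc
  have hc0 : 0 < c := by positivity
  have hc8 : c ≤ 1 / 8 := by
    have h1 : 1 / (4 * (B + 1)) ≤ 1 / 4 :=
      one_div_le_one_div_of_le (by norm_num) (by linarith)
    have h2 : 0 < 1 / (4 * (B + 1)) := by positivity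
    rw [hc]
    nlinarith
  have hsqrt : √c = 1 / (4 * (B + 1)) := by
    rw [hc, Real.sqrt_sq (by positivity)]
  set φ : ℝ := Real.arccos c with hφ
  have hcos : Real.cos φ = c := Real.cos_arccos (by linarith) (by linarith)
  have hφ0 : 0 ≤ φ := Real.arccos_nonneg c
  have hφ2 : φ < π / 2 := Real.arccos_lt_pi_div_two.mpr hc0
  have hφ1 : -(π / 2) < φ := by linarith
  have hsin : 0 ≤ Real.sin φ := Real.sin_nonneg_of_nonneg_of_le_pi hφ0 (by linarith)
  have hintφ := integrable_exp_X hφ1 hφ2
  set J : ℝ := ∫ y : ℝ, Real.exp (φ * y) * ‖X y‖ with hJ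
  set M : ℂ := ∫ y : ℝ, (Real.exp (φ * y) : ℂ) * X y with hM
  have hintJ : Integrable (fun y : ℝ => Real.exp (φ * y) * ‖X y‖) := by
    refine hintφ.norm.congr (Eventually.of_forall fun y => ?_)
    simp only [norm_mul, norm_real, Real.norm_eq_abs, abs_of_pos (Real.exp_pos _)]
  -- `J ≤ ‖M‖ + E K₀`
  have hJM : J ≤ ‖M‖ + E * K₀ := by
    have hintR : Integrable (fun y : ℝ => σ * (Real.exp (φ * y) * (X y).re)) := by
      have h1 := hintφ.re.const_mul σ
      refine h1.congr (Eventually.of_forall fun y => ?_)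
      simp only [RCLike.re_to_complex, re_ofReal_mul]
    have h1 : J ≤ ∫ y : ℝ, (σ * (Real.exp (φ * y) * (X y).re) + E * ‖X y‖) := by
      refine integral_mono hintJ (hintR.add (hint0.const_mul E)) fun y => ?_
      simp only
      have hexp := Real.exp_pos (φ * y)
      rcases lt_or_ge T |y| with hy | hy
      · have h2 := h y hy
        have h3 : ‖X y‖ = σ * (X y).re := by
          rw [norm_X]
          rcases hσ with rfl | rfl
          · rw [one_mul] at h2 ⊢
            exact abs_of_nonneg h2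
          · rw [neg_one_mul] at h2 ⊢
            exact abs_of_nonpos (by linarith)
        have h4 : 0 ≤ E * ‖X y‖ := by positivity
        have h5 : Real.exp (φ * y) * ‖X y‖ = σ * (Real.exp (φ * y) * (X y).re) := by
          rw [h3]; ring
        linarith
      · have h2 : Real.exp (φ * y) ≤ Real.exp (π / 2 * T) := by
          refine Real.exp_le_exp.mpr ?_
          calc φ * y ≤ |φ * y| := le_abs_self _
            _ = φ * |y| := by rw [abs_mul, abs_of_nonneg hφ0]
            _ ≤ π / 2 * T := by gcongr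
        have h3 : -(σ * (Real.exp (φ * y) * (X y).re)) ≤ Real.exp (φ * y) * ‖X y‖ := by
          refine (neg_le_abs _).trans ?_
          rw [abs_mul, hσa, one_mul, abs_mul, abs_of_pos hexp, norm_X]
        have h4 : Real.exp (φ * y) * ‖X y‖ ≤ Real.exp (π / 2 * T) * ‖X y‖ :=
          mul_le_mul_of_nonneg_right h2 (norm_nonneg _)
        rw [hE]
        linarith
    have h2 : ∫ y : ℝ, (σ * (Real.exp (φ * y) * (X y).re) + E * ‖X y‖) =
        σ * M.re + E * K₀ := by
      rw [integral_add hintR (hint0.const_mul E), integral_const_mul, integral_const_mul]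
      congr 2
      have h3 := integral_re hintφ
      simp only [RCLike.re_to_complex] at h3
      rw [hM, ← h3]
      refine integral_congr_ae (Eventually.of_forall fun y => ?_)
      simp only [re_ofReal_mul]
    rw [h2] at h1
    have h3 : σ * M.re ≤ ‖M‖ := by
      calc σ * M.re ≤ |σ * M.re| := le_abs_self _
        _ = |M.re| := by rw [abs_mul, hσa, one_mul]
        _ ≤ ‖M‖ := abs_re_le_norm M
    linarith
  -- `x = 1`
  have hMle : ‖M‖ ≤ 26 * π := by
    have h1 := inversion hφ1 hφ2 one_pos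
    simp only [ofReal_one, one_cpow, one_smul, mul_one, Real.one_rpow] at h1
    have h2 : ∫ y : ℝ, (2 * cexp (-(φ / 4 * I)) * (Real.exp (φ * y) : ℂ) * X y) =
        2 * cexp (-(φ / 4 * I)) * M := by
      rw [hM, ← integral_const_mul]
      refine integral_congr_ae (Eventually.of_forall fun y => ?_)
      simp only
      ring
    rw [h2] at h1
    have h3 : ‖cexp (-(φ / 4 * I))‖ = 1 := by
      have := norm_exp_I (φ / 4)
      push_cast at this
      exact this
    have h4 : ‖cexp (-(φ / 2 * I))‖ = 1 := by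
      have := norm_exp_I (φ / 2)
      push_cast at this
      exact this
    have h5 := congrArg norm h1
    rw [norm_smul, norm_mul, norm_mul, h3, Complex.norm_ofNat, Real.norm_eq_abs,
      abs_of_pos (by positivity)] at h5
    have h6 : ‖th (cexp (φ * I)) - 1 - cexp (-(φ / 2 * I))‖ ≤ 24 + 1 + 1 := by
      refine (norm_sub_le _ _).trans (add_le_add ((norm_sub_le _ _).trans
        (add_le_add (norm_th_unit_le ?_ ?_ hsin) ?_)) h4.le)
      · rw [hcos]; exact hc0
      · rw [hcos]; exact hc8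
      · rw [norm_one]
    rw [← h5] at h6
    have h7 : 1 / (2 * π) * (2 * 1 * ‖M‖) = ‖M‖ / π := by
      field_simp
    rw [h7, div_le_iff₀ hpi] at h6
    linarith
  -- `x = 2`
  have hJge : 1 / (4 * √c) - 2 ≤ J / π := by
    have h1 := inversion hφ1 hφ2 two_pos
    have h3 : ‖cexp (-(φ / 4 * I))‖ = 1 := by
      have := norm_exp_I (φ / 4)
      push_cast at this
      exact this
    have h4 : ‖cexp (-(φ / 2 * I))‖ = 1 := by
      have := norm_exp_I (φ / 2)
      push_cast at this
      exact this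
    have h5 := congrArg norm h1
    have h6 : 1 / (4 * √c) - 2 ≤ ‖th (cexp (φ * I) * ((2 : ℝ) : ℂ)) - 1 -
        cexp (-(φ / 2 * I)) * (((2 : ℝ) ^ (-(1 / 2) : ℝ) : ℝ) : ℂ)‖ := by
      have h7 := le_norm_th_two (φ := φ) (by rw [hcos]; exact hc0) (by rw [hcos]; exact hc8) hsin
      rw [hcos] at h7
      have h8 : th (cexp (φ * I) * ((2 : ℝ) : ℂ)) = th (2 * cexp (φ * I)) := by
        congr 1
        push_cast
        ring
      rw [h8]
      have h9 : ‖cexp (-(φ / 2 * I)) * (((2 : ℝ) ^ (-(1 / 2) : ℝ) : ℝ) : ℂ)‖ ≤ 1 := by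
        rw [norm_mul, h4, one_mul, norm_real, Real.norm_eq_abs, abs_of_pos (by positivity)]
        exact Real.rpow_le_one_of_one_le_of_nonpos (by norm_num) (by norm_num)
      have h10 : ‖th (2 * cexp (φ * I))‖ ≤ ‖th (2 * cexp (φ * I)) - 1 -
          cexp (-(φ / 2 * I)) * (((2 : ℝ) ^ (-(1 / 2) : ℝ) : ℝ) : ℂ)‖ + 1 + 1 := by
        calc ‖th (2 * cexp (φ * I))‖ = ‖(th (2 * cexp (φ * I)) - 1 -
              cexp (-(φ / 2 * I)) * (((2 : ℝ) ^ (-(1 / 2) : ℝ) : ℝ) : ℂ)) +
              cexp (-(φ / 2 * I)) * (((2 : ℝ) ^ (-(1 / 2) : ℝ) : ℝ) : ℂ) + 1‖ := by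
              congr 1; ring
          _ ≤ _ := by
              refine (norm_add_le _ _).trans ?_
              rw [norm_one]
              exact add_le_add ((norm_add_le _ _).trans (add_le_add le_rfl h9)) le_rfl
      linarith
    rw [← h5, norm_smul, Real.norm_eq_abs, abs_of_pos (by positivity)] at h6
    have h7 : ‖∫ y : ℝ, ((2 : ℝ) : ℂ) ^ (-(((1 / 4 : ℝ) : ℂ) + y * I)) •
        (2 * cexp (-(φ / 4 * I)) * (Real.exp (φ * y) : ℂ) * X y)‖ ≤ 2 * J := by
      rw [hJ, ← integral_const_mul]
      refine norm_integral_le_of_norm_le (hintJ.const_mul 2) (Eventually.of_forall fun y => ?_)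
      rw [norm_smul, norm_mul, norm_mul, norm_mul, h3, Complex.norm_ofNat, norm_real,
        Real.norm_eq_abs, abs_of_pos (Real.exp_pos _), norm_cpow_eq_rpow_re_of_pos two_pos]
      have h8 : (2 : ℝ) ^ (-(((1 / 4 : ℝ) : ℂ) + y * I)).re ≤ 1 := by
        refine Real.rpow_le_one_of_one_le_of_nonpos (by norm_num) ?_
        have := pt_re y
        rw [pt] at this
        rw [neg_re, this]
        norm_num
      calc (2 : ℝ) ^ (-(((1 / 4 : ℝ) : ℂ) + y * I)).re * (2 * 1 * Real.exp (φ * y) * ‖X y‖)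
          ≤ 1 * (2 * 1 * Real.exp (φ * y) * ‖X y‖) := by gcongr
        _ = 2 * (Real.exp (φ * y) * ‖X y‖) := by ring
    calc 1 / (4 * √c) - 2 ≤ 1 / (2 * π) * (2 * J) := h6.trans (by gcongr)
      _ = J / π := by field_simp
  have hfin : 1 / (4 * √c) = B + 1 := by
    rw [hsqrt]
    field_simp
  rw [hfin] at hJge
  have h10 : J / π ≤ 26 + E * K₀ / π := by
    rw [div_le_iff₀ hpi]
    have : (26 + E * K₀ / π) * π = 26 * π + E * K₀ := by field_simp
    rw [this]
    linarith
  linarith

/-- If `ξ(1/2 + 2 i y)` is `≥ 0` (or `≤ 0`) for all large positive `y`, contradiction. -/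
theorem false_of_nonneg_pos {T σ : ℝ} (hσ : σ = 1 ∨ σ = -1)
    (h : ∀ y : ℝ, T < y → 0 ≤ σ * (X y).re) : False := by
  refine false_of_nonneg hσ (T := T) fun y hy => ?_
  rcases abs_cases y with ⟨h1, _⟩ | ⟨h1, _⟩
  · rw [h1] at hy
    exact h y hy
  · rw [h1] at hy
    have := h (-y) hy
    rwa [X_neg] at this

/-- **Hardy's theorem, with sign changes**: the completed zeta function is real on the critical line
and takes both signs above every height. -/
theorem exists_sign_change (T : ℝ) :
    (∃ t : ℝ, T < t ∧ (completedRiemannZeta (1 / 2 + t * I)).re < 0) ∧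
      ∃ t : ℝ, T < t ∧ 0 < (completedRiemannZeta (1 / 2 + t * I)).re := by
  have hX : ∀ y : ℝ, X y = completedRiemannZeta (1 / 2 + ((2 * y : ℝ) : ℂ) * I) := by
    intro y
    rw [X]
    congr 1
    push_cast
    ring
  constructor
  · by_contra hcon
    push Not at hcon
    refine false_of_nonneg_pos (Or.inl rfl) (T := T / 2) fun y hy => ?_
    rw [one_mul, hX]
    exact hcon (2 * y) (by linarith)
  · by_contra hcon
    push Not at hcon
    refine false_of_nonneg_pos (Or.inr rfl) (T := T / 2) fun y hy => ?_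
    have := hcon (2 * y) (by linarith)
    rw [hX]
    linarith

/-- the completed zeta function is real on the critical line -/
theorem completedRiemannZeta_critical_im (t : ℝ) :
    (completedRiemannZeta (1 / 2 + t * I)).im = 0 := by
  have h := X_conj (t / 2)
  rw [conj_eq_iff_im, X] at h
  rw [show (1 / 2 + t * I : ℂ) = 1 / 2 + 2 * ((t / 2 : ℝ) : ℂ) * I by push_cast; ring]
  exact h

/-- **Hardy's theorem**: there is a zero of the Riemann zeta function on the critical line above
every height. -/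
theorem exists_zero_gt (T : ℝ) : ∃ t : ℝ, T < t ∧ riemannZeta (1 / 2 + t * I) = 0 := by
  by_contra hcon
  push Not at hcon
  have hne : ∀ y : ℝ, T / 2 < y → (X y).re ≠ 0 := by
    intro y hy h0
    have h1 : X y = 0 := by rw [X_eq_re, h0, ofReal_zero]
    refine hcon (2 * y) (by linarith) ?_
    have h3 : (1 / 2 + ((2 * y : ℝ) : ℂ) * I) = 1 / 2 + 2 * y * I := by push_cast; ring
    have h4 : (1 / 2 + 2 * y * I : ℂ) ≠ 0 := by
      intro h
      have h5 : (1 / 2 + 2 * y * I : ℂ).re = 1 / 2 := by simp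
      rw [h, zero_re] at h5
      norm_num at h5
    rw [h3, riemannZeta_def_of_ne_zero h4]
    rw [X] at h1
    rw [h1, zero_div]
  have hcont : Continuous fun y : ℝ => (X y).re := continuous_re.comp continuous_X
  obtain ⟨σ, hσ, hpos⟩ := sign_of_ne_zero hcont hne
  exact false_of_nonneg_pos hσ (T := T / 2) fun y hy => (hpos y hy).le

/-! ### Zeros of odd order -/

/-- `completedRiemannZeta (1/2 + 2 z i)` -/
def Xc (z : ℂ) : ℂ := completedRiemannZeta (1 / 2 + 2 * z * I)

theorem Xc_ofReal (y : ℝ) : Xc y = X y := rfl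

theorem line_re (y : ℝ) : (1 / 2 + 2 * (y : ℂ) * I).re = 1 / 2 := by simp

theorem line_ne_zero' (y : ℝ) : (1 / 2 + 2 * (y : ℂ) * I) ≠ 0 := by
  intro h
  have h0 := line_re y
  rw [h, zero_re] at h0
  norm_num at h0

theorem line_ne_one' (y : ℝ) : (1 / 2 + 2 * (y : ℂ) * I) ≠ 1 := by
  intro h
  have h0 := line_re y
  rw [h, one_re] at h0
  norm_num at h0

theorem analyticAt_completed {s : ℂ} (h0 : s ≠ 0) (h1 : s ≠ 1) :
    AnalyticAt ℂ completedRiemannZeta s := by
  have hU : IsOpen ({0, 1}ᶜ : Set ℂ) := (Set.toFinite _).isClosed.isOpen_compl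
  have hd : DifferentiableOn ℂ completedRiemannZeta ({0, 1}ᶜ : Set ℂ) := by
    intro z hz
    simp only [mem_compl_iff, mem_insert_iff, mem_singleton_iff, not_or] at hz
    exact (differentiableAt_completedZeta hz.1 hz.2).differentiableWithinAt
  exact hd.analyticAt (hU.mem_nhds (by
    simp only [mem_compl_iff, mem_insert_iff, mem_singleton_iff, not_or]
    exact ⟨h0, h1⟩))

theorem analyticAt_Xc (y : ℝ) : AnalyticAt ℂ Xc y := by
  have h := analyticAt_completed (line_ne_zero' y) (line_ne_one' y)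
  have hg : AnalyticAt ℂ (fun z : ℂ => 1 / 2 + 2 * z * I) y := by fun_prop
  exact AnalyticAt.comp (g := completedRiemannZeta) h hg

/-- the order of `ξ(1/2 + 2 i y)` is the order of the zeta function -/
theorem order_Xc (y : ℝ) :
    analyticOrderAt Xc (y : ℂ) = analyticOrderAt riemannZeta (1 / 2 + 2 * (y : ℂ) * I) := by
  set s : ℂ := 1 / 2 + 2 * (y : ℂ) * I with hs
  have hs0 : s ≠ 0 := line_ne_zero' y
  have hs1 : s ≠ 1 := line_ne_one' y
  have hsre : 0 < s.re := by rw [hs, line_re]; norm_num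
  have hg : AnalyticAt ℂ (fun z : ℂ => 1 / 2 + 2 * z * I) (y : ℂ) := by fun_prop
  have hg' : deriv (fun z : ℂ => 1 / 2 + 2 * z * I) (y : ℂ) ≠ 0 := by
    have h : HasDerivAt (fun z : ℂ => 1 / 2 + 2 * z * I) (2 * 1 * I) (y : ℂ) :=
      (((hasDerivAt_id (y : ℂ)).const_mul 2).mul_const I).const_add _
    rw [h.deriv]
    simp
  have h1 : analyticOrderAt Xc (y : ℂ) = analyticOrderAt completedRiemannZeta s :=
    analyticOrderAt_comp_of_deriv_ne_zero (f := completedRiemannZeta) hg hg'
  have hinv : AnalyticAt ℂ (fun s : ℂ => (Gammaℝ s)⁻¹) s :=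
    differentiable_Gammaℝ_inv.analyticAt s
  have hinv0 : analyticOrderAt (fun s : ℂ => (Gammaℝ s)⁻¹) s = 0 := by
    rw [hinv.analyticOrderAt_eq_zero]
    exact inv_ne_zero (Gammaℝ_ne_zero_of_re_pos hsre)
  have h2 : riemannZeta =ᶠ[𝓝 s] completedRiemannZeta * fun s : ℂ => (Gammaℝ s)⁻¹ := by
    filter_upwards [isOpen_ne.mem_nhds hs0] with z hz
    rw [riemannZeta_def_of_ne_zero hz, Pi.mul_apply, div_eq_mul_inv]
  rw [h1, analyticOrderAt_congr h2, analyticOrderAt_mul (analyticAt_completed hs0 hs1) hinv, hinv0,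
    add_zero]

theorem order_zeta_ne_top {s : ℂ} (hs1 : s ≠ 1) : analyticOrderAt riemannZeta s ≠ ⊤ := by
  have hA : AnalyticOnNhd ℂ riemannZeta ({1}ᶜ : Set ℂ) := by
    refine DifferentiableOn.analyticOnNhd (fun z hz => ?_) isOpen_compl_singleton
    exact (differentiableAt_riemannZeta hz).differentiableWithinAt
  have hconn : IsPreconnected ({1}ᶜ : Set ℂ) :=
    (isConnected_compl_singleton_of_one_lt_rank (by simp) 1).isPreconnected
  refine AnalyticOnNhd.analyticOrderAt_ne_top_of_isPreconnected hA hconn (x := 2)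
    (by rw [mem_compl_singleton_iff]; norm_num) (by rwa [mem_compl_singleton_iff]) ?_
  have h2 : AnalyticAt ℂ riemannZeta 2 := hA 2 (by rw [mem_compl_singleton_iff]; norm_num)
  rw [h2.analyticOrderAt_eq_zero.mpr (riemannZeta_ne_zero_of_one_le_re (by norm_num))]
  simp

/-- constant sign in a punctured neighbourhood of a point where the order is even -/
theorem eventually_sign {y₀ : ℝ}
    (heven : ¬ Odd (analyticOrderNatAt riemannZeta (1 / 2 + 2 * (y₀ : ℂ) * I))) :
    (∀ᶠ y in 𝓝[≠] y₀, 0 < (X y).re) ∨ ∀ᶠ y in 𝓝[≠] y₀, (X y).re < 0 := by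
  have hA := analyticAt_Xc y₀
  have hord := order_Xc y₀
  have htop : analyticOrderAt Xc (y₀ : ℂ) ≠ ⊤ := by
    rw [hord]
    exact order_zeta_ne_top (line_ne_one' y₀)
  obtain ⟨g, hg, hg0, hev⟩ := hA.analyticOrderAt_ne_top.mp htop
  set n := analyticOrderNatAt Xc (y₀ : ℂ) with hn
  have hn' : Even n := by
    rw [← Nat.not_odd_iff_even, hn, analyticOrderNatAt, hord]
    exact heven
  have hofReal : Tendsto (fun y : ℝ => (y : ℂ)) (𝓝 y₀) (𝓝 (y₀ : ℂ)) :=
    (Complex.continuous_ofReal.tendsto y₀)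
  have hev' : ∀ᶠ y : ℝ in 𝓝 y₀, (X y) = (((y - y₀) ^ n : ℝ) : ℂ) * g y := by
    filter_upwards [hofReal.eventually hev] with y hy
    rw [← Xc_ofReal, hy, smul_eq_mul]
    push_cast
    rfl
  have hgc : ContinuousAt (fun y : ℝ => g y) y₀ :=
    ContinuousAt.comp (f := fun y : ℝ => (y : ℂ)) (g := g) hg.continuousAt
      Complex.continuous_ofReal.continuousAt
  -- `g` is real on the real line
  have him : (g y₀).im = 0 := by
    have h1 : Tendsto (fun y : ℝ => (g y).im) (𝓝[≠] y₀) (𝓝 (g y₀).im) :=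
      ((Complex.continuous_im.tendsto _).comp hgc).mono_left nhdsWithin_le_nhds
    have h2 : Tendsto (fun y : ℝ => (g y).im) (𝓝[≠] y₀) (𝓝 0) := by
      refine tendsto_const_nhds.congr' ?_
      filter_upwards [hev'.filter_mono nhdsWithin_le_nhds, self_mem_nhdsWithin] with y hy hne
      have h3 : (X y).im = 0 := by rw [X_eq_re, ofReal_im]
      rw [hy, im_ofReal_mul] at h3
      have h4 : (y - y₀) ^ n ≠ 0 := pow_ne_zero _ (sub_ne_zero.mpr hne)
      exact ((mul_eq_zero.mp h3).resolve_left h4).symm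
    exact tendsto_nhds_unique h1 h2
  have hre : (g y₀).re ≠ 0 := by
    intro h
    exact hg0 (Complex.ext h him)
  have hgre : ContinuousAt (fun y : ℝ => (g y).re) y₀ :=
    ContinuousAt.comp (f := fun y : ℝ => g y) (g := Complex.re) Complex.continuous_re.continuousAt hgc
  have hpow : ∀ y : ℝ, y ≠ y₀ → 0 < (y - y₀) ^ n := fun y hy =>
    hn'.pow_pos (sub_ne_zero.mpr hy)
  rcases lt_or_gt_of_ne hre with h | h
  · right
    filter_upwards [(hgre.eventually_lt_const h).filter_mono nhdsWithin_le_nhds,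
      hev'.filter_mono nhdsWithin_le_nhds, self_mem_nhdsWithin] with y h1 h2 h3
    rw [h2, re_ofReal_mul]
    exact mul_neg_of_pos_of_neg (hpow y h3) h1
  · left
    filter_upwards [(hgre.eventually_const_lt h).filter_mono nhdsWithin_le_nhds,
      hev'.filter_mono nhdsWithin_le_nhds, self_mem_nhdsWithin] with y h1 h2 h3
    rw [h2, re_ofReal_mul]
    exact mul_pos (hpow y h3) h1

theorem isOpen_punctured {f : ℝ → ℝ} (hf : Continuous f) :
    IsOpen {y : ℝ | ∀ᶠ z in 𝓝[≠] y, 0 < f z} := by
  rw [isOpen_iff_mem_nhds]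
  intro y hy
  have h1 : ∀ᶠ z in 𝓝 y, z ≠ y → 0 < f z := eventually_nhdsWithin_iff.mp hy
  filter_upwards [h1] with z hz
  by_cases h : z = y
  · rw [h]; exact hy
  · have h2 : ∀ᶠ w in 𝓝 z, 0 < f w := hf.continuousAt.eventually_const_lt (hz h)
    exact h2.filter_mono nhdsWithin_le_nhds

/-- **no zero of odd order in an interval: no sign change** -/
theorem constant_sign {S : Set ℝ} (hS : IsPreconnected S)
    (h : ∀ y ∈ S, ¬ Odd (analyticOrderNatAt riemannZeta (1 / 2 + 2 * (y : ℂ) * I))) :
    (∀ y ∈ S, 0 ≤ (X y).re) ∨ ∀ y ∈ S, (X y).re ≤ 0 := by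
  have hcont : Continuous fun y : ℝ => (X y).re := continuous_re.comp continuous_X
  set P : Set ℝ := {y : ℝ | ∀ᶠ z in 𝓝[≠] y, 0 < (X z).re} with hP
  set N : Set ℝ := {y : ℝ | ∀ᶠ z in 𝓝[≠] y, 0 < -(X z).re} with hN
  have hPo : IsOpen P := isOpen_punctured hcont
  have hNo : IsOpen N := isOpen_punctured hcont.neg
  have hdisj : Disjoint P N := by
    rw [Set.disjoint_left]
    intro y h1 h2
    have h1' : ∀ᶠ z in 𝓝[≠] y, 0 < (X z).re := h1
    have h2' : ∀ᶠ z in 𝓝[≠] y, 0 < -(X z).re := h2
    obtain ⟨z, hz1, hz2⟩ := (h1'.and h2').exists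
    linarith
  have hcov : S ⊆ P ∪ N := by
    intro y hy
    rcases eventually_sign (h y hy) with h1 | h1
    · exact Or.inl h1
    · exact Or.inr (h1.mono fun z hz => by linarith)
  have hlim : ∀ y : ℝ, Tendsto (fun z : ℝ => (X z).re) (𝓝[≠] y) (𝓝 (X y).re) := fun y =>
    (hcont.tendsto y).mono_left nhdsWithin_le_nhds
  rcases hS.subset_or_subset hPo hNo hdisj hcov with h1 | h1
  · left
    intro y hy
    have h2 : ∀ᶠ z in 𝓝[≠] y, 0 < (X z).re := h1 hy
    exact ge_of_tendsto (hlim y) (h2.mono fun z hz => hz.le)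
  · right
    intro y hy
    have h2 : ∀ᶠ z in 𝓝[≠] y, 0 < -(X z).re := h1 hy
    exact le_of_tendsto (hlim y) (h2.mono fun z hz => by linarith)

/-- **Hardy's theorem for zeros of odd order**: above every height there is a zero of odd order of
the Riemann zeta function on the critical line. -/
theorem exists_odd_zero_gt (T : ℝ) : ∃ t : ℝ, T < t ∧ riemannZeta (1 / 2 + t * I) = 0 ∧
    Odd (analyticOrderNatAt riemannZeta (1 / 2 + t * I)) := by
  by_contra hcon
  push Not at hcon
  have h : ∀ y ∈ Ioi (T / 2), ¬ Odd (analyticOrderNatAt riemannZeta (1 / 2 + 2 * (y : ℂ) * I)) := by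
    intro y hy hodd
    have hy' : T / 2 < y := hy
    have e : (1 / 2 + ((2 * y : ℝ) : ℂ) * I) = 1 / 2 + 2 * (y : ℂ) * I := by push_cast; ring
    have h1 := hcon (2 * y) (by linarith)
    rw [e] at h1
    exact h1 (apply_eq_zero_of_analyticOrderNatAt_ne_zero (fun h0 => by
      rw [h0] at hodd
      exact absurd hodd (by decide))) hodd
  rcases constant_sign isPreconnected_Ioi h with h1 | h1
  · exact false_of_nonneg_pos (Or.inl rfl) (T := T / 2) fun y hy => by
      rw [one_mul]
      exact h1 y hy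
  · exact false_of_nonneg_pos (Or.inr rfl) (T := T / 2) fun y hy => by
      have := h1 y hy
      linarith

/-- there are infinitely many zeros of odd order on the critical line -/
theorem infinite_odd_zeros : {t : ℝ | riemannZeta (1 / 2 + t * I) = 0 ∧
    Odd (analyticOrderNatAt riemannZeta (1 / 2 + t * I))}.Infinite := by
  intro hfin
  obtain ⟨T, hT⟩ := hfin.bddAbove
  obtain ⟨t, ht, h0⟩ := exists_odd_zero_gt T
  exact absurd (hT h0) (not_le.mpr ht)

end Fermat.Agent.Cor.Hardy

end
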