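import Mathlib

/-!
# The theta function on the right half plane, near `i` and near `2 i`

`th z = ∑_{n ∈ ℤ} e^{-π n² z}`, `0 < re z`. For `c = cos φ → 0⁺` the function is bounded at
`e^{iφ}` (`norm_th_unit_le`) and unbounded at `2 e^{iφ}` (`le_norm_th_two`).
-/

set_option autoImplicit false

noncomputable section

namespace Fermat.Agent.Cor.Hardy

open Complex Real Filter Topology Set

/-- `θ(z) = ∑_{n ∈ ℤ} e^{-π n² z}` -/
def th (z : ℂ) : ℂ := jacobiTheta (I * z)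

theorem im_I_mul (z : ℂ) : (I * z).im = z.re := by simp

theorem differentiableAt_th {z : ℂ} (hz : 0 < z.re) : DifferentiableAt ℂ th z := by
  have h := differentiableAt_jacobiTheta (τ := I * z) (by rw [im_I_mul]; exact hz)
  exact h.comp z (by fun_prop)

theorem th_add_two_I (z : ℂ) : th (z + 2 * I) = th z := by
  unfold th
  rw [← jacobiTheta_two_add (I * (z + 2 * I))]
  congr 1
  linear_combination (2 : ℂ) * I_mul_I

/-- the transformation formula -/
theorem th_inv {z : ℂ} (hz : 0 < z.re) : th (1 / z) = z ^ (1 / 2 : ℂ) * th z := by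
  have hz0 : z ≠ 0 := by
    rintro rfl
    rw [zero_re] at hz
    exact lt_irrefl _ hz
  have h := jacobiTheta_S_smul ⟨I * z, by rw [im_I_mul]; exact hz⟩
  rw [UpperHalfPlane.modular_S_smul] at h
  change jacobiTheta ((-(I * z))⁻¹) = (-I * (I * z)) ^ (1 / 2 : ℂ) * jacobiTheta (I * z) at h
  have e1 : (-(I * z))⁻¹ = I * (1 / z) := by
    field_simp
    linear_combination -I_sq
  have e2 : -I * (I * z) = z := by linear_combination (-z) * I_mul_I
  rw [e1, e2] at h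
  exact h

theorem hasSum_th {z : ℂ} (hz : 0 < z.re) :
    HasSum (fun n : ℕ => cexp (-(π * ((n : ℂ) + 1) ^ 2 * z))) ((th z - 1) / 2) := by
  have h := hasSum_nat_jacobiTheta (τ := I * z) (by rw [im_I_mul]; exact hz)
  have e : (fun n : ℕ => cexp (π * I * ((n : ℂ) + 1) ^ 2 * (I * z))) =
      fun n : ℕ => cexp (-(π * ((n : ℂ) + 1) ^ 2 * z)) := by
    funext n
    congr 1
    linear_combination (π * ((n : ℂ) + 1) ^ 2 * z) * I_mul_I
  rw [e] at h
  exact h

theorem exp_neg_pi_sq_I (m : ℕ) : cexp (-(π * (m : ℂ) ^ 2 * I)) = (-1) ^ m := by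
  have h1 : cexp (-(π * (m : ℂ) ^ 2 * I)) = (-1) ^ (m ^ 2) := by
    have h2 : -(π * (m : ℂ) ^ 2 * I) = ((m ^ 2 : ℕ) : ℂ) * (-(π * I)) := by
      push_cast
      ring
    rw [h2, Complex.exp_nat_mul, Complex.exp_neg, Complex.exp_pi_mul_I, inv_neg, inv_one]
  rw [h1]
  rcases Nat.even_or_odd m with h | h
  · rw [h.neg_one_pow, (h.pow_of_ne_zero two_ne_zero).neg_one_pow]
  · rw [h.neg_one_pow, h.pow.neg_one_pow]

/-- `θ(z + i) = 2 θ(4 z) - θ(z)` -/
theorem th_add_I {z : ℂ} (hz : 0 < z.re) : th (z + I) = 2 * th (4 * z) - th z := by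
  have h1 := hasSum_th (z := z + I) (by rw [add_re, I_re, add_zero]; exact hz)
  have h4 : 0 < (4 * z).re := by
    rw [show (4 * z : ℂ) = ((4 : ℝ) : ℂ) * z by push_cast; rfl, re_ofReal_mul]
    linarith
  have h2 := (hasSum_th h4).mul_left 2
  have h3 := hasSum_th hz
  -- the even terms
  have hinj : Function.Injective fun k : ℕ => 2 * k + 1 := fun a b h => by
    simp only at h
    omega
  have h5 : HasSum (fun n : ℕ => ((-1 : ℂ) ^ (n + 1) + 1) * cexp (-(π * ((n : ℂ) + 1) ^ 2 * z)))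
      (2 * ((th (4 * z) - 1) / 2)) := by
    rw [← hinj.hasSum_iff]
    · have e : (fun n : ℕ => ((-1 : ℂ) ^ (n + 1) + 1) * cexp (-(π * ((n : ℂ) + 1) ^ 2 * z))) ∘
          (fun k : ℕ => 2 * k + 1) =
          fun k : ℕ => 2 * cexp (-(π * ((k : ℂ) + 1) ^ 2 * (4 * z))) := by
        funext k
        have e1 : ((-1 : ℂ) ^ (2 * k + 1 + 1) + 1) = 2 := by
          rw [show 2 * k + 1 + 1 = 2 * (k + 1) by ring, pow_mul, neg_one_sq, one_pow]
          norm_num
        simp only [Function.comp_apply]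
        rw [e1]
        congr 2
        push_cast
        ring
      rw [e]
      exact h2
    · intro n hn
      have hodd : Odd (n + 1) := by
        rw [Nat.odd_add_one, Nat.not_odd_iff_even]
        by_contra h
        rw [Nat.not_even_iff_odd] at h
        obtain ⟨k, hk⟩ := h
        exact hn ⟨k, hk.symm⟩
      rw [hodd.neg_one_pow]
      ring
  have h6 := h5.sub h3
  have h7 : HasSum (fun n : ℕ => cexp (-(π * ((n : ℂ) + 1) ^ 2 * (z + I))))
      (2 * ((th (4 * z) - 1) / 2) - (th z - 1) / 2) := by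
    have e : (fun n : ℕ => cexp (-(π * ((n : ℂ) + 1) ^ 2 * (z + I)))) =
        fun n : ℕ => ((-1 : ℂ) ^ (n + 1) + 1) * cexp (-(π * ((n : ℂ) + 1) ^ 2 * z)) -
          cexp (-(π * ((n : ℂ) + 1) ^ 2 * z)) := by
      funext n
      have e1 : cexp (-(π * ((n : ℂ) + 1) ^ 2 * (z + I))) =
          (-1) ^ (n + 1) * cexp (-(π * ((n : ℂ) + 1) ^ 2 * z)) := by
        have e2 := exp_neg_pi_sq_I (n + 1)
        push_cast at e2
        rw [← e2, ← Complex.exp_add]
        congr 1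
        ring
      rw [e1]
      ring
    rw [e]
    exact h6
  have h8 := h1.unique h7
  linear_combination 2 * h8

theorem exp_neg_pi_le : Real.exp (-π) ≤ 1 / 4 := by
  rw [Real.exp_neg, inv_eq_one_div]
  apply one_div_le_one_div_of_le (by norm_num)
  have h1 := Real.add_one_le_exp π
  have h2 := Real.pi_gt_three
  linarith

theorem norm_th_sub_one_le {z : ℂ} (hz : 1 ≤ z.re) :
    ‖th z - 1‖ ≤ 4 * Real.exp (-(π * z.re)) := by
  have h := norm_jacobiTheta_sub_one_le (τ := I * z) (by rw [im_I_mul]; linarith)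
  rw [im_I_mul, neg_mul] at h
  refine h.trans ?_
  have hpi := Real.pi_pos
  have h1 : Real.exp (-(π * z.re)) ≤ 1 / 4 :=
    (Real.exp_le_exp.mpr (by nlinarith)).trans exp_neg_pi_le
  refine mul_le_mul_of_nonneg_right ?_ (Real.exp_nonneg _)
  rw [div_le_iff₀ (by linarith)]
  linarith

/-! ### Geometry near `i` -/

variable {φ : ℝ}

/-- `δ = e^{iφ} - i` -/
def dl (φ : ℝ) : ℂ := cexp (φ * I) - I

theorem dl_re (φ : ℝ) : (dl φ).re = Real.cos φ := by
  unfold dl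
  rw [sub_re, exp_ofReal_mul_I_re, I_re, sub_zero]

theorem dl_im (φ : ℝ) : (dl φ).im = Real.sin φ - 1 := by
  unfold dl
  rw [sub_im, exp_ofReal_mul_I_im, I_im]

theorem normSq_dl (φ : ℝ) : Complex.normSq (dl φ) = 2 * (1 - Real.sin φ) := by
  rw [Complex.normSq_apply, dl_re, dl_im]
  linear_combination Real.sin_sq_add_cos_sq φ

/-- `re (1 / δ) ≥ 1 / (2 cos φ)` -/
theorem re_inv_dl (hc : 0 < Real.cos φ) (hs : 0 ≤ Real.sin φ) :
    1 / (2 * Real.cos φ) ≤ (1 / dl φ).re := by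
  rw [one_div (dl φ), Complex.inv_re, normSq_dl, dl_re]
  have h1 := Real.sin_sq_add_cos_sq φ
  have h2 : 0 < 1 - Real.sin φ := by nlinarith
  rw [div_le_div_iff₀ (by positivity) (by positivity)]
  nlinarith

theorem re_inv_real_mul {x : ℝ} (w : ℂ) :
    (1 / ((x : ℂ) * w)).re = x⁻¹ * (1 / w).re := by
  have h : (1 / ((x : ℂ) * w)) = ((x⁻¹ : ℝ) : ℂ) * (1 / w) := by
    push_cast
    rw [one_div, one_div, mul_inv]
  rw [h, re_ofReal_mul]

theorem norm_cpow_half_sq (w : ℂ) : ‖w ^ (1 / 2 : ℂ)‖ ^ 2 = ‖w‖ := by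
  have h : (w ^ (1 / 2 : ℂ)) ^ 2 = w := by
    have := Complex.cpow_nat_inv_pow w (n := 2) two_ne_zero
    rw [Nat.cast_ofNat, inv_eq_one_div] at this
    exact this
  rw [← norm_pow, h]

/-- **Bounded at `e^{iφ}`.** -/
theorem norm_th_unit_le (hc : 0 < Real.cos φ) (hc' : Real.cos φ ≤ 1 / 8) (hs : 0 ≤ Real.sin φ) :
    ‖th (cexp (φ * I))‖ ≤ 24 := by
  set c := Real.cos φ with hcdef
  have hpi := Real.pi_gt_three
  have hδ : 0 < (dl φ).re := by rw [dl_re]; exact hc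
  have hδ0 : dl φ ≠ 0 := by
    intro h
    rw [h, zero_re] at hδ
    exact lt_irrefl _ hδ
  have h4δ : 0 < (4 * dl φ).re := by
    rw [show (4 * dl φ : ℂ) = ((4 : ℝ) : ℂ) * dl φ by push_cast; rfl, re_ofReal_mul]
    linarith
  have hz : cexp (φ * I) = dl φ + I := by unfold dl; ring
  set r : ℂ := dl φ ^ (1 / 2 : ℂ) with hr
  have hr2 : ‖r‖ ^ 2 = ‖dl φ‖ := norm_cpow_half_sq _
  have hnδ : c ≤ ‖dl φ‖ := by
    have := Complex.re_le_norm (dl φ)
    rw [dl_re] at this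
    exact this
  have hr0 : 0 < ‖r‖ := by
    rcases (norm_nonneg r).eq_or_lt with h | h
    · rw [← h] at hr2
      have : (0 : ℝ) < ‖dl φ‖ := norm_pos_iff.mpr hδ0
      nlinarith
    · exact h
  have hrne : r ≠ 0 := norm_pos_iff.mp hr0
  have hrc : c ≤ ‖r‖ := by
    by_contra h
    rw [not_le] at h
    nlinarith
  have e1 := th_inv hδ
  have e2 := th_inv h4δ
  have e3 : (4 * dl φ) ^ (1 / 2 : ℂ) = 2 * r := by
    have h1 : (4 * dl φ : ℂ) = ((4 : ℝ) : ℂ) * dl φ := by push_cast; rfl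
    have h2 : (4 * dl φ : ℂ) ≠ 0 := mul_ne_zero (by norm_num) hδ0
    have h3 : Real.log 4 = 2 * Real.log 2 := by
      rw [show (4 : ℝ) = 2 ^ 2 by norm_num, Real.log_pow]
      norm_num
    rw [hr, Complex.cpow_def_of_ne_zero h2, Complex.cpow_def_of_ne_zero hδ0, h1,
      Complex.log_ofReal_mul (by norm_num) hδ0, h3, add_mul, Complex.exp_add]
    congr 1
    rw [show ((2 * Real.log 2 : ℝ) : ℂ) * (1 / 2) = ((Real.log 2 : ℝ) : ℂ) by push_cast; ring,
      ← Complex.ofReal_exp, Real.exp_log (by norm_num)]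
    norm_num
  rw [← hr] at e1
  have key : th (cexp (φ * I)) = r⁻¹ * (th (1 / (4 * dl φ)) - th (1 / dl φ)) := by
    rw [hz, th_add_I hδ, e1, e2, e3]
    field_simp
  have b1 : 1 ≤ (1 / (4 * dl φ)).re ∧ 1 / (8 * c) ≤ (1 / (4 * dl φ)).re := by
    have h1 := re_inv_real_mul (x := 4) (dl φ)
    rw [show ((4 : ℝ) : ℂ) = 4 by push_cast; rfl] at h1
    have h2 := re_inv_dl hc hs
    have h3 : 1 / (8 * c) ≤ (1 / (4 * dl φ)).re := by
      rw [h1]
      calc 1 / (8 * c) = 4⁻¹ * (1 / (2 * c)) := by field_simp; norm_num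
        _ ≤ _ := by gcongr
    refine ⟨le_trans ?_ h3, h3⟩
    rw [le_div_iff₀ (by positivity)]
    linarith
  have b2 : 1 / (8 * c) ≤ (1 / dl φ).re := by
    refine le_trans ?_ (re_inv_dl hc hs)
    apply one_div_le_one_div_of_le (by positivity)
    linarith
  have b3 : 1 ≤ (1 / dl φ).re := by
    refine le_trans ?_ b2
    rw [le_div_iff₀ (by positivity)]
    linarith
  have n1 := norm_th_sub_one_le b1.1
  have n2 := norm_th_sub_one_le b3
  have n3 : ‖th (1 / (4 * dl φ)) - th (1 / dl φ)‖ ≤ 8 * Real.exp (-(π * (1 / (8 * c)))) := by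
    have h1 : th (1 / (4 * dl φ)) - th (1 / dl φ) =
        (th (1 / (4 * dl φ)) - 1) - (th (1 / dl φ) - 1) := by ring
    rw [h1]
    refine (norm_sub_le _ _).trans ?_
    have h2 : Real.exp (-(π * (1 / (4 * dl φ)).re)) ≤ Real.exp (-(π * (1 / (8 * c)))) :=
      Real.exp_le_exp.mpr (by nlinarith [b1.2])
    have h3 : Real.exp (-(π * (1 / dl φ).re)) ≤ Real.exp (-(π * (1 / (8 * c)))) :=
      Real.exp_le_exp.mpr (by nlinarith [b2])
    linarith
  rw [key, norm_mul, norm_inv]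
  have h5 : ‖r‖⁻¹ ≤ c⁻¹ := inv_anti₀ hc hrc
  have h6 := Real.mul_exp_neg_le_exp_neg_one (π * (1 / (8 * c)))
  have h7 : Real.exp (-1) ≤ 1 := Real.exp_le_one_iff.mpr (by norm_num)
  have h8 : c⁻¹ = (8 / π) * (π * (1 / (8 * c))) := by
    field_simp
  have h9 : 8 / π ≤ 3 := by
    rw [div_le_iff₀ (by positivity)]
    linarith
  calc ‖r‖⁻¹ * ‖th (1 / (4 * dl φ)) - th (1 / dl φ)‖
      ≤ c⁻¹ * (8 * Real.exp (-(π * (1 / (8 * c))))) := by gcongr
    _ = 8 * (8 / π) * ((π * (1 / (8 * c))) * Real.exp (-(π * (1 / (8 * c))))) := by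
        rw [h8]; ring
    _ ≤ 8 * (8 / π) * 1 := by gcongr; exact h6.trans h7
    _ ≤ 8 * 3 * 1 := by gcongr
    _ = 24 := by norm_num

/-- **Unbounded at `2 e^{iφ}`.** -/
theorem le_norm_th_two (hc : 0 < Real.cos φ) (hc' : Real.cos φ ≤ 1 / 8) (hs : 0 ≤ Real.sin φ) :
    1 / (4 * √(Real.cos φ)) ≤ ‖th (2 * cexp (φ * I))‖ := by
  set c := Real.cos φ with hcdef
  have hpi := Real.pi_gt_three
  have h2δ : 0 < (2 * dl φ).re := by
    rw [show (2 * dl φ : ℂ) = ((2 : ℝ) : ℂ) * dl φ by push_cast; rfl, re_ofReal_mul, dl_re]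
    linarith
  have hz : 2 * cexp (φ * I) = 2 * dl φ + 2 * I := by unfold dl; ring
  set r : ℂ := (2 * dl φ) ^ (1 / 2 : ℂ) with hr
  have hr2 : ‖r‖ ^ 2 = 2 * ‖dl φ‖ := by
    rw [hr, norm_cpow_half_sq, norm_mul, Complex.norm_ofNat]
  have hnδ : ‖dl φ‖ ≤ 2 * c := by
    have h1 : ‖dl φ‖ ^ 2 = 2 * (1 - Real.sin φ) := by
      rw [← normSq_dl, Complex.normSq_eq_norm_sq]
    have h2 := Real.sin_sq_add_cos_sq φ
    have h3 : ‖dl φ‖ ^ 2 ≤ (2 * c) ^ 2 := by
      rw [h1]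
      nlinarith [Real.sin_le_one φ]
    exact le_of_sq_le_sq h3 (by positivity)
  have hrc : ‖r‖ ≤ 2 * √c := by
    have h3 : ‖r‖ ^ 2 ≤ (2 * √c) ^ 2 := by
      rw [hr2, mul_pow, Real.sq_sqrt hc.le]
      linarith
    exact le_of_sq_le_sq h3 (by positivity)
  have e1 := th_inv h2δ
  have b1 : 2 ≤ (1 / (2 * dl φ)).re := by
    have h1 := re_inv_real_mul (x := 2) (dl φ)
    rw [show ((2 : ℝ) : ℂ) = 2 by push_cast; rfl] at h1
    have h2 := re_inv_dl hc hs
    rw [h1]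
    calc (2 : ℝ) ≤ 2⁻¹ * (1 / (2 * c)) := by
          rw [← hcdef] at *
          rw [mul_one_div, le_div_iff₀ (by positivity)]
          linarith
      _ ≤ _ := by gcongr
  have n1 := norm_th_sub_one_le (z := 1 / (2 * dl φ)) (by linarith)
  have n2 : Real.exp (-(π * (1 / (2 * dl φ)).re)) ≤ 1 / 16 := by
    have h1 : Real.exp (-(π * (1 / (2 * dl φ)).re)) ≤ Real.exp (-π) ^ 2 := by
      rw [← Real.exp_nat_mul]
      exact Real.exp_le_exp.mpr (by push_cast; nlinarith)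
    have h2 := exp_neg_pi_le
    have h3 := Real.exp_pos (-π)
    nlinarith
  have n3 : 1 / 2 ≤ ‖th (1 / (2 * dl φ))‖ := by
    have h1 : (1 : ℝ) ≤ ‖th (1 / (2 * dl φ))‖ + ‖th (1 / (2 * dl φ)) - 1‖ := by
      calc (1 : ℝ) = ‖(1 : ℂ)‖ := norm_one.symm
        _ = ‖th (1 / (2 * dl φ)) - (th (1 / (2 * dl φ)) - 1)‖ := by congr 1; ring
        _ ≤ _ := norm_sub_le _ _
    linarith
  rw [hz, th_add_two_I]
  rw [e1, norm_mul] at n3
  have hth : 0 ≤ ‖th (2 * dl φ)‖ := norm_nonneg _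
  have hsc : 0 < √c := Real.sqrt_pos.mpr hc
  rw [div_le_iff₀ (by positivity)]
  nlinarith [mul_le_mul_of_nonneg_right hrc hth]

end Fermat.Agent.Cor.Hardy

end
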